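import Fermat.Agent.S56.E.Abs.Basic
import Fermat.Agent.S56.E.Abs.RatDefs

/-!
# S56 / E / keys `S56/E-QH1K`, `S56/E-QH0K`, `S56/E-QSHA` : cohomology of `ker P(D)`       (S55 formalism, general group; ~150-250 lines each)

`(ρ, D)`: `A` killed by `p`, `D` an equivariant endomorphism, `D^m = 1`, `p ∤ m`, `P ∈ ℤ[X]` with `redP p P ∣ X^m - 1`.
Choose `Q, a, b ∈ ℤ[X]` with `redP (P Q) = X^m - 1`, `redP (a P + b Q) = 1` (`X^m - 1` separable mod `p` ⇒ `redP P`, `redP Q` coprime; lift by `Polynomial.map_surjective`).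
`e := (bQ)(D)`: `P(D) e = 0`, `e = 1` on `ker P(D)`.  So `ι : ker P(D) ↪ A` and `r := e` (cod-restricted) `: A → ker P(D)` are equivariant, `r ι = id`, `ι r = e`.
[`aeval D` of two polynomials with the same reduction agree since `pA = 0`.]
* `card_H1_ker` : `H1c ι` is injective (`H1c_retract`) with image `= ker P(D_*)`, `D_* = H1c 𝓛 hD`.  `F(aeval D R) = aeval (F D) R` for `F = H1c 𝓛` (induction on `R`: `H1c_add`, `H1c_comp`/`H1c_H1c`, `H1c_nsmul`, `H1c_neg`, `H1c_id`): state it as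
  `H1c 𝓛 (isHom_aeval hD R) x = aeval (H1c 𝓛 hD) R x`.   `x ∈ image` ⇒ `P(D_*) x = H1c (P(D) ι) = 0`; `P(D_*) x = 0` ⇒ `x = (aP + bQ)(D_*) x = e_* x = H1c ι (H1c r x)` (`H¹` is killed by `p`).
* `card_H0_ker` : direct: `a ∈ H0 (kerRho hD P) ↔ a.1 ∈ H0 ρ ∧ P(D) a.1 = 0` (NO hypothesis on `P` needed).
* `card_ShaA2_ker` : `H2c ι` is injective (`H2c_retract`) and maps `ShaA2` into `ShaA2` (`res2_H2c`).
-/

set_option autoImplicit false

noncomputable section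

namespace Fermat.Agent.S56.E

open Fermat.Agent.S55 Polynomial

variable {Γ : Type} [Group Γ] {p : ℕ} [Fact p.Prime] {A : Type} [AddCommGroup A]
  {ρ : Γ →* AddMonoid.End A} {D : AddMonoid.End A}

/-- `D_*` on `H¹` as an element of the endomorphism ring -/
def H1e (𝓛 : Lvl Γ) (hD : IsHom ρ ρ D) : AddMonoid.End (H1 𝓛 ρ) := H1c 𝓛 hD

/-- `D` on `H⁰` as an element of the endomorphism ring -/
def H0e (hD : IsHom ρ ρ D) : AddMonoid.End (H0 ρ) := H0c hD

/-! ### polynomial algebra -/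

/-- ring homomorphisms commute with `aeval` of integer polynomials -/
theorem kerAux_map_aeval {R₁ R₂ : Type*} [Ring R₁] [Ring R₂] (F : R₁ →+* R₂) (d : R₁) (P : ℤ[X]) :
    F (aeval d P) = aeval (F d) P :=
  (Polynomial.aeval_algHom_apply F.toIntAlgHom d P).symm

/-- the complementary factor and the Bezout relation -/
theorem kerAux_bezout {m : ℕ} (hpm : ¬ p ∣ m) (P : ℤ[X]) (hP : redP p P ∣ X ^ m - 1) :
    ∃ Q a b : ℤ[X], redP p (P * Q) = X ^ m - 1 ∧ redP p (a * P + b * Q) = 1 := by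
  obtain ⟨Q', hQ'⟩ := hP
  have hsep : (X ^ m - C (1 : ZMod p)).Separable :=
    Polynomial.separable_X_pow_sub_C 1 (by rwa [Ne, ZMod.natCast_eq_zero_iff]) one_ne_zero
  rw [C_1, hQ'] at hsep
  obtain ⟨a', b', hab⟩ := hsep.isCoprime
  have hs := Polynomial.map_surjective (Int.castRingHom (ZMod p)) ZMod.intCast_surjective
  obtain ⟨Q, rfl⟩ := hs Q'
  obtain ⟨a, rfl⟩ := hs a'
  obtain ⟨b, rfl⟩ := hs b'
  refine ⟨Q, a, b, ?_, ?_⟩
  · rw [redP, Polynomial.map_mul, hQ']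
  · rw [redP, Polynomial.map_add, Polynomial.map_mul, Polynomial.map_mul, hab]

/-- on a group killed by `p`, `P(δ)` only depends on `P mod p` -/
theorem kerAux_aeval_congr {W : Type*} [AddCommGroup W] (htors : ∀ a : W, p • a = 0)
    (δ : AddMonoid.End W) {R S : ℤ[X]} (h : redP p R = redP p S) : aeval δ R = aeval δ S := by
  have h1 : C (p : ℤ) ∣ R - S := by
    rw [Polynomial.C_dvd_iff_dvd_coeff]
    intro i
    have h2 := congrArg (fun f => f.coeff i) h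
    simp only [redP, coeff_map, eq_intCast] at h2
    rw [coeff_sub, ← ZMod.intCast_zmod_eq_zero_iff_dvd, Int.cast_sub, h2, sub_self]
  obtain ⟨T, hT⟩ := h1
  have h3 : aeval δ (R - S) = 0 := by
    rw [hT, map_mul, aeval_C]
    have : (algebraMap ℤ (AddMonoid.End W) (p : ℤ)) = 0 := by
      ext a
      rw [map_natCast]
      simpa using htors a
    rw [this, zero_mul]
  rw [map_sub, sub_eq_zero] at h3
  exact h3

/-- `P(δ)` as an additive map (generic in `W`) -/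
def pev {W : Type*} [AddCommGroup W] (δ : AddMonoid.End W) (P : ℤ[X]) : W →+ W :=
  (aeval δ P : AddMonoid.End W)

theorem mem_kerP {W : Type*} [AddCommGroup W] {δ : AddMonoid.End W} {P : ℤ[X]} {x : W} :
    x ∈ kerP δ P ↔ pev δ P x = 0 := Iff.rfl

theorem pev_mul {W : Type*} [AddCommGroup W] (δ : AddMonoid.End W) (P Q : ℤ[X]) (x : W) :
    pev δ (P * Q) x = pev δ P (pev δ Q x) := by
  unfold pev
  rw [map_mul]
  rfl

theorem pev_add {W : Type*} [AddCommGroup W] (δ : AddMonoid.End W) (P Q : ℤ[X]) (x : W) :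
    pev δ (P + Q) x = pev δ P x + pev δ Q x := by
  unfold pev
  rw [map_add]
  rfl

theorem pev_one {W : Type*} [AddCommGroup W] (δ : AddMonoid.End W) (x : W) :
    pev δ 1 x = x := by
  unfold pev
  rw [map_one]
  rfl

theorem pev_congr {W : Type*} [AddCommGroup W] (htors : ∀ a : W, p • a = 0)
    (δ : AddMonoid.End W) {R S : ℤ[X]} (h : redP p R = redP p S) : pev δ R = pev δ S := by
  unfold pev
  rw [kerAux_aeval_congr htors δ h]

/-- `E(δ)` is the identity on `ker P(δ)` if `F P + E ≡ 1` -/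
theorem pev_fix {W : Type*} [AddCommGroup W] (htors : ∀ a : W, p • a = 0)
    (δ : AddMonoid.End W) {E F P : ℤ[X]} (h : redP p (F * P + E) = 1) {y : W}
    (hy : pev δ P y = 0) : pev δ E y = y := by
  have h1 : pev δ (F * P + E) = pev δ 1 := pev_congr htors δ (h.trans (by simp))
  have h2 := DFunLike.congr_fun h1 y
  rw [pev_add, pev_mul, hy, map_zero, zero_add, pev_one] at h2
  exact h2

/-- `P(δ) (b Q)(δ) = 0` if `P Q ≡ X^m - 1` and `δ^m = 1` -/
theorem pev_kill {W : Type*} [AddCommGroup W] (htors : ∀ a : W, p • a = 0)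
    (δ : AddMonoid.End W) {m : ℕ} (hδ : δ ^ m = 1) {P Q b : ℤ[X]} (h : redP p (P * Q) = X ^ m - 1)
    (x : W) : pev δ P (pev δ (b * Q) x) = 0 := by
  rw [← pev_mul]
  have h3 : pev δ (P * (b * Q)) = pev δ (b * (X ^ m - 1)) := by
    apply pev_congr htors
    have : P * (b * Q) = b * (P * Q) := by ring
    rw [this]
    show (b * (P * Q)).map _ = (b * (X ^ m - 1)).map _
    have h' : (P * Q).map (Int.castRingHom (ZMod p)) =
        (X ^ m - 1 : ℤ[X]).map (Int.castRingHom (ZMod p)) := by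
      rw [Polynomial.map_sub, Polynomial.map_pow, Polynomial.map_X, Polynomial.map_one]
      exact h
    rw [Polynomial.map_mul, h', Polynomial.map_mul]
  rw [h3, pev_mul]
  have h4 : pev δ (X ^ m - 1) x = 0 := by
    unfold pev
    rw [map_sub, map_pow, aeval_X, map_one, hδ, sub_self]
    rfl
  rw [h4, map_zero]

/-- ring homomorphisms into an endomorphism ring commute with `pev` -/
theorem pev_map {R₁ : Type*} [Ring R₁] {W : Type*} [AddCommGroup W] (F : R₁ →+* AddMonoid.End W)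
    (d : R₁) (P : ℤ[X]) : (F (aeval d P) : W →+ W) = pev (F d) P :=
  kerAux_map_aeval F d P

/-! ### the ring of equivariant endomorphisms -/

/-- the ring of equivariant endomorphisms -/
def homRing (ρ : Γ →* AddMonoid.End A) : Subring (AddMonoid.End A) where
  carrier := {φ | IsHom ρ ρ φ}
  mul_mem' := fun hφ hψ => IsHom.comp hφ hψ
  one_mem' := IsHom.id ρ
  add_mem' := fun hφ hψ => IsHom.add hφ hψ
  zero_mem' := IsHom.zero ρ ρ
  neg_mem' := fun hφ => IsHom.neg hφ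

/-- `H¹` as a ring homomorphism -/
def H1r (𝓛 : Lvl Γ) (ρ : Γ →* AddMonoid.End A) : homRing ρ →+* AddMonoid.End (H1 𝓛 ρ) where
  toFun φ := H1c 𝓛 (φ := φ.1) φ.2
  map_one' := by
    ext x
    exact H1c_id 𝓛 x
  map_mul' φ ψ := by
    ext x
    exact H1c_comp 𝓛 φ.2 ψ.2 x
  map_zero' := by
    ext x
    exact H1c_zero 𝓛 x
  map_add' φ ψ := by
    ext x
    exact H1c_add 𝓛 φ.2 ψ.2 x

/-- `H⁰` as a ring homomorphism -/
def H0r (ρ : Γ →* AddMonoid.End A) : homRing ρ →+* AddMonoid.End (H0 ρ) where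
  toFun φ := H0c (φ := φ.1) φ.2
  map_one' := by
    ext x
    rfl
  map_mul' φ ψ := by
    ext x
    rfl
  map_zero' := by
    ext x
    rfl
  map_add' φ ψ := by
    ext x
    rfl

theorem kerAux_coe_aeval (hD : IsHom ρ ρ D) (R : ℤ[X]) :
    ((aeval (⟨D, hD⟩ : homRing ρ) R : homRing ρ) : AddMonoid.End A) = aeval D R :=
  kerAux_map_aeval (homRing ρ).subtype ⟨D, hD⟩ R

/-- functoriality of `H¹` for polynomials in `D` -/
theorem H1c_aeval (𝓛 : Lvl Γ) (hD : IsHom ρ ρ D) (R : ℤ[X]) (x : H1 𝓛 ρ) :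
    H1c 𝓛 (isHom_aeval hD R) x = pev (H1e 𝓛 hD) R x := by
  have h1 : pev (H1e 𝓛 hD) R = H1r 𝓛 ρ (aeval (⟨D, hD⟩ : homRing ρ) R) :=
    (pev_map (H1r 𝓛 ρ) ⟨D, hD⟩ R).symm
  rw [h1]
  exact H1c_congr 𝓛 _ (aeval (⟨D, hD⟩ : homRing ρ) R).2 (kerAux_coe_aeval hD R).symm x

/-- functoriality of `H⁰` for polynomials in `D` -/
theorem H0c_aeval (hD : IsHom ρ ρ D) (R : ℤ[X]) (x : H0 ρ) :
    ((pev (H0e hD) R x : H0 ρ) : A) = pev D R (x : A) := by
  have h1 : pev (H0e hD) R = H0r ρ (aeval (⟨D, hD⟩ : homRing ρ) R) :=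
    (pev_map (H0r ρ) ⟨D, hD⟩ R).symm
  rw [h1]
  unfold pev
  rw [← kerAux_coe_aeval hD R]
  rfl

omit [Fact p.Prime] in
theorem kerAux_H1_tors (𝓛 : Lvl Γ) (htors : ∀ a : A, p • a = 0) (x : H1 𝓛 ρ) : p • x = 0 := by
  have h1 := H1c_nsmul 𝓛 (IsHom.id ρ) p x
  rw [H1c_id] at h1
  rw [← h1, H1c_congr 𝓛 _ (IsHom.zero ρ ρ) (by ext a; simpa using htors a), H1c_zero]

/-! ### the retraction -/

/-- the data of the retraction `r : A → ker P(D)` -/
theorem kerAux_retr (htors : ∀ a : A, p • a = 0) (hD : IsHom ρ ρ D) {m : ℕ}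
    (hpm : ¬ p ∣ m) (hDm : D ^ m = 1) (P : ℤ[X]) (hP : redP p P ∣ X ^ m - 1) :
    ∃ (E F : ℤ[X]) (r : A →+ ↥(AddMonoidHom.ker (aeval D P : AddMonoid.End A))),
      redP p (F * P + E) = 1 ∧ IsHom ρ (kerRho hD P) r ∧ (∀ a, ((r a : _) : A) = aeval D E a) ∧
        ∀ x : ↥(AddMonoidHom.ker (aeval D P : AddMonoid.End A)), r (x : A) = x := by
  obtain ⟨Q, a, b, h1, h2⟩ := kerAux_bezout hpm P hP
  have hmem : ∀ x : A, pev D (b * Q) x ∈ AddMonoidHom.ker (aeval D P : AddMonoid.End A) :=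
    fun x => pev_kill htors D hDm h1 x
  refine ⟨b * Q, a, (pev D (b * Q)).codRestrict _ hmem, h2, ?_, fun _ => rfl, ?_⟩
  · intro g x
    apply Subtype.ext
    exact isHom_aeval hD (b * Q) g x
  · intro x
    apply Subtype.ext
    exact pev_fix htors D h2 x.2

theorem card_H1_ker (𝓛 : Lvl Γ) (htors : ∀ a : A, p • a = 0) (hD : IsHom ρ ρ D) {m : ℕ} (hm : 0 < m)
    (hpm : ¬ p ∣ m) (hDm : D ^ m = 1) (P : ℤ[X]) (hP : redP p P ∣ X ^ m - 1) :
    Nat.card (H1 𝓛 (kerRho hD P)) =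
      Nat.card (kerP (H1e 𝓛 hD) P) := by
  obtain ⟨E, F, r, h1, hr, hrE, hrι⟩ := kerAux_retr htors hD hpm hDm P hP
  have hι : IsHom (kerRho hD P) ρ (AddMonoidHom.ker (aeval D P : AddMonoid.End A)).subtype :=
    isHom_subtype _
  have hmem : ∀ x : H1 𝓛 (kerRho hD P), H1c 𝓛 hι x ∈ kerP (H1e 𝓛 hD) P := by
    intro x
    rw [mem_kerP, ← H1c_aeval,
      H1c_H1c 𝓛 (isHom_aeval hD P) hι (IsHom.zero _ _) (fun a => a.2), H1c_zero]
  refine Nat.card_congr (Equiv.ofBijective (fun x => ⟨H1c 𝓛 hι x, hmem x⟩) ⟨?_, ?_⟩)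
  · intro x y hxy
    have h2 : H1c 𝓛 hι x = H1c 𝓛 hι y := congrArg Subtype.val hxy
    rw [← H1c_retract 𝓛 hι hr hrι x, h2, H1c_retract 𝓛 hι hr hrι y]
  · rintro ⟨y, hy⟩
    refine ⟨H1c 𝓛 hr y, Subtype.ext ?_⟩
    show H1c 𝓛 hι (H1c 𝓛 hr y) = y
    rw [H1c_H1c 𝓛 hι hr (isHom_aeval hD E) hrE, H1c_aeval]
    exact pev_fix (kerAux_H1_tors 𝓛 htors) (H1e 𝓛 hD) h1 (mem_kerP.1 hy)

omit [Fact p.Prime] in
theorem card_H0_ker (hD : IsHom ρ ρ D) (P : ℤ[X]) :
    Nat.card (H0 (kerRho hD P)) =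
      Nat.card (kerP (H0e hD) P) := by
  refine Nat.card_congr
    { toFun := fun x => ⟨⟨x.1.1, fun g => congrArg Subtype.val (x.2 g)⟩, ?_⟩
      invFun := fun y => ⟨⟨y.1.1, ?_⟩, ?_⟩
      left_inv := fun x => rfl
      right_inv := fun y => rfl }
  · rw [mem_kerP]
    apply Subtype.ext
    rw [H0c_aeval]
    exact x.1.2
  · show pev D P y.1.1 = 0
    rw [← H0c_aeval hD P y.1, mem_kerP.1 y.2]
    rfl
  · intro g
    apply Subtype.ext
    exact y.1.2 g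

theorem card_ShaA2_ker (𝓛 : Lvl Γ) {Q : Type} (Dv : Q → Subgroup Γ) (htors : ∀ a : A, p • a = 0)
    (hD : IsHom ρ ρ D) {m : ℕ} (hm : 0 < m) (hpm : ¬ p ∣ m) (hDm : D ^ m = 1) (P : ℤ[X])
    (hP : redP p P ∣ X ^ m - 1) (h0 : ∀ x ∈ ShaA2 𝓛 Dv ρ, x = 0) :
    Nat.card (ShaA2 𝓛 Dv (kerRho hD P)) = 1 := by
  obtain ⟨E, F, r, h1, hr, hrE, hrι⟩ := kerAux_retr htors hD hpm hDm P hP
  have hι : IsHom (kerRho hD P) ρ (AddMonoidHom.ker (aeval D P : AddMonoid.End A)).subtype :=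
    isHom_subtype _
  have hz : ∀ x ∈ ShaA2 𝓛 Dv (kerRho hD P), x = 0 := by
    intro x hx
    have h2 : H2c 𝓛 hι x ∈ ShaA2 𝓛 Dv ρ := by
      intro v
      rw [res2_H2c, hx v, map_zero]
    rw [← H2c_retract 𝓛 hι hr hrι x, h0 _ h2, map_zero]
  rw [Nat.card_eq_one_iff_unique]
  exact ⟨⟨fun x y => Subtype.ext ((hz _ x.2).trans (hz _ y.2).symm)⟩, ⟨0⟩⟩

end Fermat.Agent.S56.E
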