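import Fermat.Agent.S56.E.Abs.Poly

/-!
# S56 / E / key `S56/E-QSHA` : `Ш²(ker P(D)) = 0`      (helper8)

`exists_projPoly` : `a, E ∈ ℤ[X]` with `P(D) E(D) = 0` and `a(D) P(D) + E(D) = 1`;
`kerProj` : the equivariant retraction `A → ker P(D)`.
-/

set_option autoImplicit false

noncomputable section

namespace Fermat.Agent.S56.E

open Fermat.Agent.S55 Polynomial

variable {Γ : Type} [Group Γ] {p : ℕ} [Fact p.Prime] {A : Type} [AddCommGroup A]
  {ρ : Γ →* AddMonoid.End A} {D : AddMonoid.End A}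

/-- two integer polynomials with the same reduction act in the same way on a group killed by `p` -/
theorem aeval_eq_of_redP (htors : ∀ a : A, p • a = 0) {P Q : ℤ[X]} (h : redP p P = redP p Q) :
    (aeval D P : AddMonoid.End A) = aeval D Q := by
  obtain ⟨_⟩ : Nonempty (Module (ZMod p) A) := ⟨AddCommGroup.zmodModule htors⟩
  ext a
  rw [aeval_redP (T := AddMonoidHom.toZModLinearMap p (D : A →+ A)) (fun _ => rfl),
    aeval_redP (T := AddMonoidHom.toZModLinearMap p (D : A →+ A)) (fun _ => rfl), h]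

/-- the projector polynomial -/
theorem exists_projPoly (htors : ∀ a : A, p • a = 0) {m : ℕ} (hpm : ¬ p ∣ m) (hDm : D ^ m = 1)
    (P : ℤ[X]) (hP : redP p P ∣ X ^ m - 1) :
    ∃ a E : ℤ[X], (aeval D P : AddMonoid.End A) * aeval D E = 0 ∧
      (aeval D a * aeval D P + aeval D E : AddMonoid.End A) = 1 := by
  obtain ⟨Qb, hQb⟩ := hP
  have hsep : (X ^ m - 1 : (ZMod p)[X]).Separable := by
    have := separable_X_pow_sub_C' p m (1 : ZMod p) hpm one_ne_zero
    rwa [map_one] at this
  rw [hQb] at hsep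
  obtain ⟨ab, bb, hab⟩ := hsep.isCoprime
  have hsurj : ∀ f : (ZMod p)[X], ∃ Q : ℤ[X], redP p Q = f := fun f =>
    Polynomial.map_surjective _ (ZMod.intCast_surjective) f
  obtain ⟨Q, rfl⟩ := hsurj Qb
  obtain ⟨a, rfl⟩ := hsurj ab
  obtain ⟨b, rfl⟩ := hsurj bb
  refine ⟨a, b * Q, ?_, ?_⟩
  · rw [← map_mul]
    have h1 : redP p (P * (b * Q)) = redP p (b * (X ^ m - 1)) := by
      simp only [redP, Polynomial.map_mul, Polynomial.map_sub, Polynomial.map_pow, Polynomial.map_X,
        Polynomial.map_one]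
      rw [hQb]
      ring
    rw [aeval_eq_of_redP htors h1, map_mul, map_sub, map_pow, aeval_X, hDm, map_one, sub_self,
      mul_zero]
  · rw [← map_mul, ← map_add]
    have h1 : redP p (a * P + b * Q) = redP p 1 := by
      simp only [redP, Polynomial.map_mul, Polynomial.map_add, Polynomial.map_one]
      exact hab
    rw [aeval_eq_of_redP htors h1, map_one]

/-- the retraction defined by a projector polynomial -/
def kerProj {P E : ℤ[X]} (h : (aeval D P : AddMonoid.End A) * aeval D E = 0) :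
    A →+ ↥(AddMonoidHom.ker (aeval D P : AddMonoid.End A)) :=
  AddMonoidHom.codRestrict (aeval D E : AddMonoid.End A) _ (fun x => DFunLike.congr_fun h x)

theorem coe_kerProj {P E : ℤ[X]} (h : (aeval D P : AddMonoid.End A) * aeval D E = 0) (x : A) :
    (kerProj h x : A) = (aeval D E : AddMonoid.End A) x := rfl

theorem isHom_kerProj (hD : IsHom ρ ρ D) {P E : ℤ[X]}
    (h : (aeval D P : AddMonoid.End A) * aeval D E = 0) : IsHom ρ (kerRho hD P) (kerProj h) :=
  fun g x => Subtype.ext (isHom_aeval hD E g x)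

theorem kerProj_coe {a P E : ℤ[X]} (h : (aeval D P : AddMonoid.End A) * aeval D E = 0)
    (h1 : (aeval D a * aeval D P + aeval D E : AddMonoid.End A) = 1)
    (x : ↥(AddMonoidHom.ker (aeval D P : AddMonoid.End A))) : kerProj h (x : A) = x := by
  refine Subtype.ext ?_
  rw [coe_kerProj]
  have h2 := DFunLike.congr_fun h1 (x : A)
  have h3 : (aeval D P : AddMonoid.End A) (x : A) = 0 := x.2
  have h4 : (aeval D a * aeval D P + aeval D E : AddMonoid.End A) (x : A) =
      (aeval D a : AddMonoid.End A) ((aeval D P : AddMonoid.End A) (x : A)) +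
        (aeval D E : AddMonoid.End A) (x : A) := rfl
  rw [h4, h3, map_zero, zero_add] at h2
  exact h2

theorem card_ShaA2_ker_main (𝓛 : Lvl Γ) {Q : Type} (Dv : Q → Subgroup Γ) (htors : ∀ a : A, p • a = 0)
    (hD : IsHom ρ ρ D) {m : ℕ} (hm : 0 < m) (hpm : ¬ p ∣ m) (hDm : D ^ m = 1) (P : ℤ[X])
    (hP : redP p P ∣ X ^ m - 1) (h0 : ∀ x ∈ ShaA2 𝓛 Dv ρ, x = 0) :
    Nat.card (ShaA2 𝓛 Dv (kerRho hD P)) = 1 := by
  obtain ⟨a, E, h, h1⟩ := exists_projPoly htors hpm hDm P hP
  have hι : IsHom (kerRho hD P) ρ (AddMonoidHom.ker (aeval D P : AddMonoid.End A)).subtype :=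
    isHom_subtype _
  have key : ∀ x ∈ ShaA2 𝓛 Dv (kerRho hD P), x = 0 := by
    intro x hx
    have h2 : H2c 𝓛 hι x ∈ ShaA2 𝓛 Dv ρ := by
      intro v
      rw [res2_H2c 𝓛 (Dv v).subtype hι x, hx v, map_zero]
    have h3 := H2c_retract 𝓛 hι (isHom_kerProj hD h) (kerProj_coe h h1) x
    rw [h0 _ h2, map_zero] at h3
    exact h3.symm
  have : Subsingleton (ShaA2 𝓛 Dv (kerRho hD P)) :=
    ⟨fun x y => Subtype.ext ((key x x.2).trans (key y y.2).symm)⟩
  exact Nat.card_unique

end Fermat.Agent.S56.E
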