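import Fermat.Agent.S56.E.Abs.Basic
import Fermat.Agent.S56.E.Abs.Rat

/-!
# S56 / E / key `S56/E-QDUAL` : `rat_dual'`      (helper21; statement = `rat_dual` of `Q/Perm.lean`)
-/

set_option autoImplicit false

noncomputable section

namespace Fermat.Agent.S56.E

open Fermat.Agent.S55 Polynomial

section Poly

theorem pd_monomial_apply {X : Type*} [AddCommGroup X] (δ : AddMonoid.End X) (n : ℕ) (c : ℤ) (x : X) :
    (aeval δ (monomial n c) : AddMonoid.End X) x = c • ((δ ^ n) x) := by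
  rw [aeval_monomial, eq_intCast]
  show ((c : AddMonoid.End X)) ((δ ^ n) x) = _
  rw [AddMonoid.End.intCast_apply]

theorem pd_add_apply {X : Type*} [AddCommGroup X] (δ : AddMonoid.End X) (F G : ℤ[X]) (x : X) :
    (aeval δ (F + G) : AddMonoid.End X) x =
      (aeval δ F : AddMonoid.End X) x + (aeval δ G : AddMonoid.End X) x := by
  rw [map_add]
  rfl

theorem pd_mul_apply {X : Type*} [AddCommGroup X] (δ : AddMonoid.End X) (F G : ℤ[X]) (x : X) :
    (aeval δ (F * G) : AddMonoid.End X) x =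
      (aeval δ F : AddMonoid.End X) ((aeval δ G : AddMonoid.End X) x) := by
  rw [map_mul]
  rfl

theorem pd_aeval_congr {p : ℕ} {W : Type*} [AddCommGroup W] (hW : ∀ w : W, p • w = 0)
    (δ : AddMonoid.End W) {F G : ℤ[X]} (h : redP p F = redP p G) :
    (aeval δ F : AddMonoid.End W) = aeval δ G := by
  have h1 : C (p : ℤ) ∣ F - G := by
    rw [Polynomial.C_dvd_iff_dvd_coeff]
    intro i
    have h2 := congrArg (fun q => q.coeff i) h
    simp only [redP, coeff_map, eq_intCast] at h2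
    rw [coeff_sub]
    exact (ZMod.intCast_eq_intCast_iff_dvd_sub _ _ _).1 h2.symm
  obtain ⟨K, hK⟩ := h1
  have h3 : (aeval δ (F - G) : AddMonoid.End W) = 0 := by
    rw [hK, map_mul, aeval_C, eq_intCast]
    ext w
    show (((p : ℤ) : AddMonoid.End W)) ((aeval δ K : AddMonoid.End W) w) = 0
    rw [AddMonoid.End.intCast_apply, natCast_zsmul, hW]
  rw [map_sub, sub_eq_zero] at h3
  exact h3

theorem pd_intertwine {X Y : Type*} [AddCommGroup X] [AddCommGroup Y] (φ : X →+ Y)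
    (δX : AddMonoid.End X) (δY : AddMonoid.End Y) (h : ∀ x, φ (δX x) = δY (φ x)) (F : ℤ[X]) (x : X) :
    φ ((aeval δX F : AddMonoid.End X) x) = (aeval δY F : AddMonoid.End Y) (φ x) := by
  have hpow : ∀ (n : ℕ) (x : X), φ ((δX ^ n) x) = (δY ^ n) (φ x) := by
    intro n
    induction n with
    | zero => intro x; rfl
    | succ n ih =>
      intro x
      rw [pow_succ, pow_succ]
      show φ ((δX ^ n) (δX x)) = (δY ^ n) (δY (φ x))
      rw [ih, h]
  induction F using Polynomial.induction_on' with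
  | add F G hF hG =>
    rw [pd_add_apply, pd_add_apply, map_add, hF, hG]
  | monomial n c => rw [pd_monomial_apply, pd_monomial_apply, map_zsmul, hpow]

theorem pd_adjoint {M N Z : Type*} [AddCommGroup M] [AddCommGroup N] [AddCommGroup Z]
    (B : M →+ N →+ Z) (δ : AddMonoid.End M) (D : AddMonoid.End N)
    (h : ∀ a f, B (δ a) f = B a (D f)) (F : ℤ[X]) (a : M) (f : N) :
    B ((aeval δ F : AddMonoid.End M) a) f = B a ((aeval D F : AddMonoid.End N) f) := by
  have hpow : ∀ (n : ℕ) (a : M) (f : N), B ((δ ^ n) a) f = B a ((D ^ n) f) := by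
    intro n
    induction n with
    | zero => intro a f; rfl
    | succ n ih =>
      intro a f
      rw [pow_succ, pow_succ']
      show B ((δ ^ n) (δ a)) f = B a (D ((D ^ n) f))
      rw [ih, h]
  induction F using Polynomial.induction_on' with
  | add F G hF hG =>
    rw [pd_add_apply, pd_add_apply, map_add, map_add, AddMonoidHom.add_apply, hF, hG]
  | monomial n c =>
    rw [pd_monomial_apply, pd_monomial_apply, map_zsmul, map_zsmul, AddMonoidHom.zsmul_apply, hpow]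

theorem pd_exists_proj {p m : ℕ} [Fact p.Prime] (hpm : ¬ p ∣ m) (P : ℤ[X])
    (hP : redP p P ∣ X ^ m - 1) :
    ∃ R A B : ℤ[X], redP p (P * R) = redP p (B * (X ^ m - 1)) ∧ redP p (A * P + R) = redP p 1 := by
  obtain ⟨q, hq⟩ := hP
  have hm0 : ((m : ℕ) : ZMod p) ≠ 0 := by
    intro h
    exact hpm ((ZMod.natCast_eq_zero_iff m p).1 h)
  have hsep : (X ^ m - C (1 : ZMod p)).Separable := separable_X_pow_sub_C 1 hm0 one_ne_zero
  rw [C_1, hq] at hsep
  obtain ⟨a, b, hab⟩ := hsep.isCoprime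
  have hsurj := Polynomial.map_surjective (Int.castRingHom (ZMod p)) ZMod.intCast_surjective
  obtain ⟨A, rfl⟩ := hsurj a
  obtain ⟨B, rfl⟩ := hsurj b
  obtain ⟨Q, rfl⟩ := hsurj q
  refine ⟨B * Q, A, B, ?_, ?_⟩
  · simp only [redP, Polynomial.map_mul, Polynomial.map_sub, Polynomial.map_pow, Polynomial.map_X,
      Polynomial.map_one] at hq ⊢
    rw [hq]
    ring
  · simp only [redP, Polynomial.map_mul, Polynomial.map_add, Polynomial.map_one] at hab ⊢
    exact hab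

/-- consequences of `pd_exists_proj` for an endomorphism of order dividing `m` -/
theorem pd_proj_spec {p m : ℕ} {W : Type*} [AddCommGroup W] (hW : ∀ w : W, p • w = 0)
    (δ : AddMonoid.End W) (hδ : δ ^ m = 1) {P R A B : ℤ[X]}
    (h1 : redP p (P * R) = redP p (B * (X ^ m - 1))) (h2 : redP p (A * P + R) = redP p 1) :
    (∀ w, (aeval δ P : AddMonoid.End W) ((aeval δ R : AddMonoid.End W) w) = 0) ∧
    (∀ w, (aeval δ R : AddMonoid.End W) ((aeval δ P : AddMonoid.End W) w) = 0) ∧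
    (∀ w, (aeval δ P : AddMonoid.End W) w = 0 → (aeval δ R : AddMonoid.End W) w = w) := by
  have e1 : (aeval δ (P * R) : AddMonoid.End W) = 0 := by
    rw [pd_aeval_congr hW δ h1, map_mul, map_sub, map_pow, aeval_X, hδ, map_one, sub_self, mul_zero]
  have e2 : (aeval δ (A * P + R) : AddMonoid.End W) = 1 := by
    rw [pd_aeval_congr hW δ h2, map_one]
  refine ⟨fun w => ?_, fun w => ?_, fun w hw => ?_⟩
  · rw [← pd_mul_apply, e1]
    rfl
  · rw [← pd_mul_apply, mul_comm, e1]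
    rfl
  · have h3 := DFunLike.congr_fun e2 w
    rw [pd_add_apply, pd_mul_apply, hw, map_zero, zero_add] at h3
    exact h3

end Poly

section Abs

variable {Γ H : Type} [Group Γ] [Group H] (r : H →* Γ) {p : ℕ} (χ : Γ →* (ZMod p)ˣ)

theorem pd_comp_mem {A B : Type*} [AddCommGroup A] [AddCommGroup B] {ρA : Γ →* AddMonoid.End A}
    {ρB : Γ →* AddMonoid.End B} {φ : A →+ B} (hφ : IsHom ρA ρB φ) {ψ : B →+ ZMod p}
    (hψ : ψ ∈ H0 ((dualRho χ ρB).comp r)) : ψ.comp φ ∈ H0 ((dualRho χ ρA).comp r) := by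
  rw [mem_H0] at hψ ⊢
  intro h
  ext a
  have h1 := DFunLike.congr_fun (hψ h) (φ a)
  show ((χ (r h) : (ZMod p)ˣ) : ZMod p) * ψ (φ (ρA (r h)⁻¹ a)) = ψ (φ a)
  rw [hφ]
  exact h1

theorem pd_card_abs [Fact p.Prime] {m : ℕ} (hpm : ¬ p ∣ m)
    {N M : Type} [AddCommGroup N] [AddCommGroup M] (hN : ∀ f : N, p • f = 0)
    (hM : ∀ a : M, p • a = 0) (ρ : Γ →* AddMonoid.End N) (D : AddMonoid.End N) (hD : IsHom ρ ρ D)
    (hDm : D ^ m = 1) (δ : AddMonoid.End M) (hδm : δ ^ m = 1) (Φ : M →+ (N →+ ZMod p))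
    (hΦ : Function.Bijective Φ) (hadj : ∀ a f, Φ (δ a) f = Φ a (D f)) (W : AddSubgroup M)
    (hW : ∀ a, a ∈ W ↔ Φ a ∈ H0 ((dualRho χ ρ).comp r)) (δW : AddMonoid.End W)
    (hδW : ∀ a : W, ((δW a : W) : M) = δ a) (P : ℤ[X]) (hP : redP p P ∣ X ^ m - 1) :
    Nat.card (H0 ((dualRho χ (kerRho hD P)).comp r)) =
      Nat.card (AddMonoidHom.ker ((aeval δW P : AddMonoid.End W) : W →+ W)) := by
  obtain ⟨R, A, B, h1, h2⟩ := pd_exists_proj hpm P hP
  obtain ⟨d1, d2, d3⟩ := pd_proj_spec hN D hDm h1 h2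
  obtain ⟨m1, m2, m3⟩ := pd_proj_spec hM δ hδm h1 h2
  have hsub : ∀ (F : ℤ[X]) (a : W), (((aeval δW F : AddMonoid.End W) a : W) : M) =
      (aeval δ F : AddMonoid.End M) a := fun F a => pd_intertwine W.subtype δW δ hδW F a
  have hadjF := pd_adjoint Φ δ D hadj
  let K : AddSubgroup N := AddMonoidHom.ker (aeval D P : AddMonoid.End N)
  let e' : N →+ K := ((aeval D R : AddMonoid.End N) : N →+ N).codRestrict K (fun f => d1 f)
  have he' : IsHom ρ (kerRho hD P) e' := fun γ f => Subtype.ext (isHom_aeval hD R γ f)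
  have hι : IsHom (kerRho hD P) ρ K.subtype := fun _ _ => rfl
  let Θ : AddMonoidHom.ker ((aeval δW P : AddMonoid.End W) : W →+ W) →
      H0 ((dualRho χ (kerRho hD P)).comp r) := fun a =>
    ⟨(Φ (a.1 : M)).comp K.subtype, pd_comp_mem r χ hι ((hW _).1 a.1.2)⟩
  have hker : ∀ a : AddMonoidHom.ker ((aeval δW P : AddMonoid.End W) : W →+ W),
      (aeval δ P : AddMonoid.End M) (a.1 : M) = 0 := by
    intro a
    rw [← hsub]
    have h3 : (aeval δW P : AddMonoid.End W) a.1 = 0 := a.2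
    rw [h3]
    rfl
  have hinj : Function.Injective Θ := by
    intro a a' haa
    apply Subtype.ext
    apply Subtype.ext
    rw [← m3 _ (hker a), ← m3 _ (hker a')]
    apply hΦ.1
    ext f
    rw [hadjF, hadjF]
    exact DFunLike.congr_fun (congrArg Subtype.val haa) (e' f)
  have hsurj : Function.Surjective Θ := by
    intro ψ
    obtain ⟨a, ha⟩ := hΦ.2 (ψ.1.comp e')
    have haW : a ∈ W := by
      rw [hW, ha]
      exact pd_comp_mem r χ he' ψ.2
    have haP : (aeval δ P : AddMonoid.End M) a = 0 := by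
      apply hΦ.1
      ext f
      rw [hadjF, ha, map_zero]
      show ψ.1 (e' ((aeval D P : AddMonoid.End N) f)) = 0
      have : e' ((aeval D P : AddMonoid.End N) f) = 0 := Subtype.ext (d2 f)
      rw [this, map_zero]
    refine ⟨⟨⟨a, haW⟩, ?_⟩, ?_⟩
    · show (aeval δW P : AddMonoid.End W) ⟨a, haW⟩ = 0
      apply Subtype.ext
      rw [hsub]
      exact haP
    · apply Subtype.ext
      ext f
      show Φ a (f : N) = ψ.1 f
      rw [ha]
      show ψ.1 (e' (f : N)) = ψ.1 f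
      have : e' (f : N) = f := Subtype.ext (d3 _ f.2)
      rw [this]
  exact (Nat.card_congr (Equiv.ofBijective Θ ⟨hinj, hsurj⟩)).symm

end Abs

section Conc

theorem pd_inv_apply {α : Type*} (f : Equiv.Perm α) (x : α) : f⁻¹ (f x) = x :=
  f.symm_apply_apply x

theorem pd_apply_inv {α : Type*} (f : Equiv.Perm α) (x : α) : f (f⁻¹ x) = x :=
  f.apply_symm_apply x

/-- `pull` as an endomorphism -/
def pdPull {Ω : Type*} (A : Type*) [AddCommGroup A] (u : Ω → Ω) : AddMonoid.End (Ω → A) := pull A u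

theorem pd_pull_pow {Ω A : Type*} [AddCommGroup A] (u : Ω → Ω) (k : ℕ) (f : Ω → A) (s : Ω) :
    ((pdPull A u ^ k) f) s = f (u^[k] s) := by
  induction k generalizing f with
  | zero => rfl
  | succ k ih =>
    rw [pow_succ]
    show ((pdPull A u ^ k) (pdPull A u f)) s = _
    rw [ih, Function.iterate_succ_apply']
    rfl

theorem pd_fnToDual_bijective {Ω : Type*} [Fintype Ω] (p : ℕ) :
    Function.Bijective (fnToDual Ω p) := by
  classical
  refine ⟨fun a b h => ?_, fun φ => ⟨_, fnToDual_dualToFn φ⟩⟩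
  funext s
  have h1 := DFunLike.congr_fun h (Pi.single s 1)
  rw [fnToDual_apply, fnToDual_apply] at h1
  simpa [Pi.single_apply] using h1

variable {Γ : Type} [Group Γ] {p : ℕ} [Fact p.Prime] (χ : Γ →* (ZMod p)ˣ)
  (U₁ : Subgroup Γ) (g : Γ) (hg : ∀ u ∈ U₁, g⁻¹ * u * g ∈ U₁)

omit [Fact p.Prime] in
theorem pd_rmul_iterate (k : ℕ) (x : Γ) :
    (rmul U₁ g hg)^[k] (x : Γ ⧸ U₁) = ((x * g ^ k : Γ) : Γ ⧸ U₁) := by
  induction k generalizing x with
  | zero => simp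
  | succ k ih => rw [Function.iterate_succ_apply, rmul_mk, ih, pow_succ', mul_assoc]

theorem pd_rmul_iterate_m {m : ℕ} (hgm : g ^ m ∈ U₁) (s : Γ ⧸ U₁) :
    (rmul U₁ g hg)^[m] s = s := by
  induction s using QuotientGroup.induction_on with
  | H x =>
    rw [pd_rmul_iterate, QuotientGroup.eq]
    have : (x * g ^ m)⁻¹ * x = (g ^ m)⁻¹ := by group
    rw [this]
    exact U₁.inv_mem hgm

/-- right multiplication by `g` as a permutation -/
def pdSigma {m : ℕ} (hm : 0 < m) (hgm : g ^ m ∈ U₁) : Equiv.Perm (Γ ⧸ U₁) where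
  toFun := rmul U₁ g hg
  invFun := (rmul U₁ g hg)^[m - 1]
  left_inv s := by
    rw [← Function.iterate_succ_apply, Nat.succ_eq_add_one, Nat.sub_add_cancel hm]
    exact pd_rmul_iterate_m U₁ g hg hgm s
  right_inv s := by
    rw [← Function.iterate_succ_apply' (rmul U₁ g hg), Nat.succ_eq_add_one, Nat.sub_add_cancel hm]
    exact pd_rmul_iterate_m U₁ g hg hgm s

theorem pdSigma_pow {m : ℕ} (hm : 0 < m) (hgm : g ^ m ∈ U₁) : pdSigma U₁ g hg hm hgm ^ m = 1 := by
  ext s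
  rw [← Equiv.Perm.iterate_eq_pow]
  exact pd_rmul_iterate_m U₁ g hg hgm s

theorem pd_card [Fintype (Γ ⧸ U₁)] {m : ℕ} (hm : 0 < m) (hpm : ¬ p ∣ m) (hgm : g ^ m ∈ U₁)
    {H : Type} [Group H] (r : H →* Γ)
    (hσ : ∀ e ∈ Set.range (fun h : H => cosetPerm U₁ (r h)), ∀ x,
      (pdSigma U₁ g hg hm hgm)⁻¹ (e x) = e ((pdSigma U₁ g hg hm hgm)⁻¹ x))
    (P : ℤ[X]) (hP : redP p P ∣ X ^ m - 1) :
    Nat.card (H0 ((dualRho χ (kerRho (isHom_Dop U₁ g hg (rhoChi χ)) P)).comp r)) =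
      Nat.card (AddMonoidHom.ker ((aeval (invShift (ZMod p)
        (Set.range (fun h : H => cosetPerm U₁ (r h))) (pdSigma U₁ g hg hm hgm)⁻¹ hσ) P :
        AddMonoid.End _) : _ →+ _)) := by
  have hp0 : ∀ f : Γ ⧸ U₁ → ZMod p, p • f = 0 := by
    intro f
    funext s
    simp
  refine pd_card_abs r χ hpm hp0 hp0 (Fn (cosetPerm U₁) (rhoChi χ)) (Dop U₁ g hg (ZMod p))
    (isHom_Dop U₁ g hg (rhoChi χ)) ?_
    (pdPull (ZMod p) ((pdSigma U₁ g hg hm hgm)⁻¹ : Equiv.Perm (Γ ⧸ U₁))) ?_ (fnToDual (Γ ⧸ U₁) p)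
    (pd_fnToDual_bijective p) ?_ (invFun (Γ ⧸ U₁) (ZMod p) _) ?_ _ (fun _ => rfl) P hP
  · ext f s
    show ((pdPull (ZMod p) (rmul U₁ g hg) ^ m) f) s = f s
    rw [pd_pull_pow, pd_rmul_iterate_m U₁ g hg hgm]
  · ext f s
    show ((pdPull (ZMod p) ((pdSigma U₁ g hg hm hgm)⁻¹ : Equiv.Perm (Γ ⧸ U₁)) ^ m) f) s = f s
    rw [pd_pull_pow, Equiv.Perm.iterate_eq_pow, inv_pow, pdSigma_pow]
    rfl
  · intro a f
    rw [fnToDual_apply, fnToDual_apply]
    refine (Equiv.sum_comp (pdSigma U₁ g hg hm hgm) _).symm.trans ?_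
    refine Finset.sum_congr rfl fun s _ => ?_
    show a ((pdSigma U₁ g hg hm hgm)⁻¹ (pdSigma U₁ g hg hm hgm s)) * f (pdSigma U₁ g hg hm hgm s) =
      a s * f (rmul U₁ g hg s)
    rw [pd_inv_apply]
    rfl
  · intro a
    rw [mem_H0]
    constructor
    · intro ha h
      show dualRho χ (Fn (cosetPerm U₁) (rhoChi χ)) (r h) (fnToDual (Γ ⧸ U₁) p a) = _
      rw [← isHom_fnToDual χ (cosetPerm U₁) (r h) a]
      congr 1
      funext s
      show a ((cosetPerm U₁ (r h))⁻¹ s) = a s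
      have h1 := ha _ ⟨h, rfl⟩ ((cosetPerm U₁ (r h))⁻¹ s)
      rw [← h1]
      show a (cosetPerm U₁ (r h) ((cosetPerm U₁ (r h))⁻¹ s)) = a s
      rw [pd_apply_inv]
    · rintro ha _ ⟨h, rfl⟩ x
      have h1 : dualRho χ (Fn (cosetPerm U₁) (rhoChi χ)) (r h) (fnToDual (Γ ⧸ U₁) p a) =
        fnToDual (Γ ⧸ U₁) p a := ha h
      rw [← isHom_fnToDual χ (cosetPerm U₁) (r h) a] at h1
      have h2 := congrFun ((pd_fnToDual_bijective p).1 h1) (cosetPerm U₁ (r h) x)
      have h3 : a ((cosetPerm U₁ (r h))⁻¹ (cosetPerm U₁ (r h) x)) = a (cosetPerm U₁ (r h) x) := h2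
      rw [pd_inv_apply] at h3
      exact h3.symm

theorem rat_dual' [Finite (Γ ⧸ U₁)] {m : ℕ} (hm : 0 < m) (hpm : ¬ p ∣ m) (hgm : g ^ m ∈ U₁)
    {H : Type} [Group H] (r : H →* Γ) (d : ℕ) (hd : d ∣ m) (P : ℤ[X])
    (hP : redP p P ∣ cyclotomic d (ZMod p)) :
    d.totient * padicValNat p
        (Nat.card (H0 ((dualRho χ (kerRho (isHom_Dop U₁ g hg (rhoChi χ)) P)).comp r))) =
      (redP p P).natDegree * padicValNat p
        (Nat.card (H0 ((dualRho χ (kerRho (isHom_Dop U₁ g hg (rhoChi χ)) (cyclotomic d ℤ))).comp r))) := by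
  have : Fintype (Γ ⧸ U₁) := Fintype.ofFinite _
  have hcyc : cyclotomic d (ZMod p) ∣ X ^ m - 1 := by
    rw [← prod_cyclotomic_eq_X_pow_sub_one hm]
    exact Finset.dvd_prod_of_mem _ (Nat.mem_divisors.2 ⟨hd, hm.ne'⟩)
  have hσ : ∀ e ∈ Set.range (fun h : H => cosetPerm U₁ (r h)), ∀ x,
      (pdSigma U₁ g hg hm hgm)⁻¹ (e x) = e ((pdSigma U₁ g hg hm hgm)⁻¹ x) := by
    rintro _ ⟨h, rfl⟩ x
    rw [Equiv.Perm.inv_eq_iff_eq]
    have h1 := isSetMap_rmul U₁ g hg (r h) ((pdSigma U₁ g hg hm hgm)⁻¹ x)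
    have h2 : rmul U₁ g hg ((pdSigma U₁ g hg hm hgm)⁻¹ x) = x :=
      pd_apply_inv (pdSigma U₁ g hg hm hgm) x
    rw [h2] at h1
    exact h1.symm
  have hσm : (pdSigma U₁ g hg hm hgm)⁻¹ ^ m = 1 := by rw [inv_pow, pdSigma_pow, inv_one]
  rw [pd_card χ U₁ g hg hm hpm hgm r hσ P (hP.trans hcyc),
    pd_card χ U₁ g hg hm hpm hgm r hσ (cyclotomic d ℤ) (by rw [redP, map_cyclotomic_int]; exact hcyc)]
  exact isRat_perm hm hpm _ _ hσ hσm d hd P hP

end Conc

end Fermat.Agent.S56.E
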