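import Fermat.Agent.S56.E.Abs.Basic
import Fermat.Agent.S56.E.Abs.Rat
import Fermat.Agent.S56.E.Q.PermDual

/-!
# S56 / E / keys `S56/E-QDM`, `S56/E-QKERJ`, `S56/E-QMINUS`, `S56/E-QDUAL` : the permutation-type terms are rational       (formal, general group `Γ`)

`U₁ ≤ Γ` of finite index, `g` normalises `U₁`, `g^m ∈ U₁`, `p ∤ m`, `T = rhoChi χ`, `N₁ = Fn (cosetPerm U₁) T`, `D = Dop U₁ g hg (ZMod p)` (`(D f)(xU₁) = f(x g U₁)`), `N_P = kerRho hD P`.
* `Dop_pow` (E-QDM, ~40 lines): `D^k = pull (rmul ..)^k`, `x g^m U₁ = x U₁`.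
* `lam_ker_X_pow` (E-QKERJ, ~200 lines): `pull (cosetMap (U₁ ≤ U₁ ⊔ zpowers (g^j)))` (S55/A/Tw: `cosetMap`, `isSetMap_cosetMap`, `isHom_pull`) is an equivariant injection `Map(Γ/U_j, T) → N₁` with image `ker (D^j - 1)`:
  if `f(x g^j U₁) = f(x U₁)` for all `x` then `f(x w U₁) = f(x U₁)` for all `w ∈ U₁ ⊔ zpowers (g^j)` (`Subgroup.closure_induction`/`Subgroup.mem_sup` + `zpowers`; `g` normalises `U₁`), so `f` factors through `Γ/U_j`.  `aeval D (X^j - 1) = D^j - 1`.  `lam_iso`.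
* `rat_minus` (E-QMINUS, ~200 lines): `χ c = -1`: `f ∈ minus N_P c ↔ P(D) f = 0 ∧ ∀ s, f (c⁻¹ s) = f s`.  So `minus (N_P) c ≃ ker (aeval δ P)`, `δ = invShift (ZMod p) E σ _` with `Ω = Γ ⧸ U₁`, `E = {cosetPerm U₁ c}`, `σ` = the permutation `rmul U₁ g hg` (inverse `rmul U₁ g⁻¹`), which commutes with left translations
  (`isSetMap_rmul`).  `aeval` commutes with the inclusion `invFun ↪ (Ω → ZMod p)` (induction on `P`).  `isRat_perm`.
* `rat_dual` (E-QDUAL, ~350 lines): `r : H →* Γ`.  `H⁰(H, (N_P)') = Hom_H(N_P, T)` (`mem_H0_dualRho`).  With the projector `e = (bQ)(D)` of `Q/Ker.lean` (`redP P ∣ Φ̄_d ∣ X^m - 1`): restriction `Hom_H(N₁,T) → Hom_H(N_P,T)` is onto (`ψ ↦ ψ ∘ e`), and identifies `Hom_H(N_P,T)` with `{ψ ∈ Hom_H(N₁,T) | ψ ∘ P(D) = 0}`.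
  `fnToDual`/`dualToFn` (S55/A/DualMod): `ψ = ψ_a : f ↦ ∑ a(s) f(s)`; `ψ_a ∈ Hom_H(N₁,T) ↔ a` is invariant under `r(H)` (`isHom_dualToFn`, `isHom_fnToDual`: `dualRho χ (Fn π T) ≅ Fn π 𝟙`); `ψ_a ∘ D = ψ_{a ∘ σ⁻¹}`.  So `#H⁰(H,(N_P)') = #ker (aeval δ' P)`, `δ' = invShift (ZMod p) E σ⁻¹ _`, `E = {cosetPerm U₁ (r h)}`.  `isRat_perm` for `σ⁻¹`.
-/

set_option autoImplicit false

noncomputable section

namespace Fermat.Agent.S56.E

open Fermat.Agent.S55 Polynomial

variable {Γ : Type} [Group Γ] {p : ℕ} [Fact p.Prime] (χ : Γ →* (ZMod p)ˣ)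
  (U₁ : Subgroup Γ) (g : Γ) (hg : ∀ u ∈ U₁, g⁻¹ * u * g ∈ U₁)

theorem Dop_pow_apply (A : Type) [AddCommGroup A] (k : ℕ) (f : Γ ⧸ U₁ → A) (x : Γ) :
    (Dop U₁ g hg A ^ k) f (x : Γ ⧸ U₁) = f ((x * g ^ k : Γ) : Γ ⧸ U₁) := by
  induction k generalizing f with
  | zero => simp
  | succ k ih =>
    rw [pow_succ]
    show (Dop U₁ g hg A ^ k) (Dop U₁ g hg A f) (x : Γ ⧸ U₁) = _
    rw [ih]
    show f (rmul U₁ g hg ((x * g ^ k : Γ) : Γ ⧸ U₁)) = _
    rw [rmul_mk, pow_succ, mul_assoc]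

theorem Dop_pow {m : ℕ} (hgm : g ^ m ∈ U₁) (A : Type) [AddCommGroup A] : Dop U₁ g hg A ^ m = 1 := by
  ext f s
  induction s using QuotientGroup.induction_on with
  | H x =>
    rw [Dop_pow_apply, QuotientGroup.mk_mul_of_mem x hgm]
    rfl

/-- intertwining: `ι δ = D ι` implies `ι P(δ) = P(D) ι` -/
theorem aeval_intertwine {W W' : Type*} [AddCommGroup W] [AddCommGroup W'] (ι : W' →+ W)
    (δ : AddMonoid.End W') (D : AddMonoid.End W) (h : ∀ w, ι (δ w) = D (ι w)) (P : ℤ[X]) (w : W') :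
    ι (aeval δ P w) = aeval D P (ι w) := by
  have hpow : ∀ (n : ℕ) (w : W'), ι ((δ ^ n) w) = (D ^ n) (ι w) := by
    intro n
    induction n with
    | zero => intro w; simp
    | succ n ih =>
      intro w
      rw [pow_succ, pow_succ]
      show ι ((δ ^ n) (δ w)) = (D ^ n) (D (ι w))
      rw [ih, h]
  induction P using Polynomial.induction_on' with
  | add p q hp hq =>
    rw [map_add, map_add]
    show ι (aeval δ p w + aeval δ q w) = aeval D p (ι w) + aeval D q (ι w)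
    rw [map_add, hp, hq]
  | monomial n a =>
    rw [aeval_monomial, aeval_monomial]
    show ι ((algebraMap ℤ (AddMonoid.End W') a) ((δ ^ n) w)) =
      (algebraMap ℤ (AddMonoid.End W) a) ((D ^ n) (ι w))
    rw [← hpow]
    have e1 : ∀ (v : W'), (algebraMap ℤ (AddMonoid.End W') a) v = a • v := by
      intro v
      rw [Algebra.algebraMap_eq_smul_one]
      rfl
    have e2 : ∀ (v : W), (algebraMap ℤ (AddMonoid.End W) a) v = a • v := by
      intro v
      rw [Algebra.algebraMap_eq_smul_one]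
      rfl
    rw [e1, e2, map_zsmul]

theorem mem_ker_X_pow (A : Type) [AddCommGroup A] (j : ℕ) (F : Γ ⧸ U₁ → A) :
    F ∈ AddMonoidHom.ker (aeval (Dop U₁ g hg A) (X ^ j - 1 : ℤ[X]) : AddMonoid.End (Γ ⧸ U₁ → A)) ↔
      ∀ x : Γ, F ((x * g ^ j : Γ) : Γ ⧸ U₁) = F (x : Γ ⧸ U₁) := by
  rw [AddMonoidHom.mem_ker, map_sub, map_pow, aeval_X, map_one]
  show (Dop U₁ g hg A ^ j) F - F = 0 ↔ _
  rw [sub_eq_zero]
  constructor
  · intro h x
    rw [← Dop_pow_apply U₁ g hg A j F x, h]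
  · intro h
    ext s
    induction s using QuotientGroup.induction_on with
    | H x => rw [Dop_pow_apply, h]

theorem lam_ker_X_pow {U : Subgroup Γ} {V : Type} [AddCommGroup V] (L : LamData U p V)
    [Finite (Γ ⧸ U₁)] (hU : ∀ u ∈ U, cosetPerm U₁ u = 1) (hχ : ∀ u ∈ U, χ u = 1) (j : ℕ) :
    L.lam _ (kerRho (isHom_Dop U₁ g hg (rhoChi χ)) (X ^ j - 1)) =
      L.lam _ (Fn (cosetPerm (U₁ ⊔ Subgroup.zpowers (g ^ j))) (rhoChi χ)) := by
  have hle : U₁ ≤ U₁ ⊔ Subgroup.zpowers (g ^ j) := le_sup_left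
  have hsurj : Function.Surjective (cosetMap hle) := by
    intro s
    induction s using QuotientGroup.induction_on with
    | H x => exact ⟨(x : Γ ⧸ U₁), rfl⟩
  haveI : Finite (Γ ⧸ (U₁ ⊔ Subgroup.zpowers (g ^ j))) := Finite.of_surjective _ hsurj
  have hUj : ∀ u ∈ U, cosetPerm (U₁ ⊔ Subgroup.zpowers (g ^ j)) u = 1 := by
    intro u hu
    ext s
    induction s using QuotientGroup.induction_on with
    | H x =>
      have h1 := congrArg (fun e : Equiv.Perm (Γ ⧸ U₁) => e (x : Γ ⧸ U₁)) (hU u hu)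
      simp only [cosetPerm_mk, Equiv.Perm.one_apply] at h1
      have h2 := congrArg (cosetMap hle) h1
      rw [cosetMap_mk, cosetMap_mk] at h2
      rw [cosetPerm_mk, Equiv.Perm.one_apply]
      exact h2
  have hmod : IsMod U p (Fn (cosetPerm (U₁ ⊔ Subgroup.zpowers (g ^ j))) (rhoChi χ)) :=
    (isMod_rhoChi hχ).fn hUj
  -- the map
  have hmem : ∀ f : Γ ⧸ (U₁ ⊔ Subgroup.zpowers (g ^ j)) → ZMod p,
      pull (ZMod p) (cosetMap hle) f ∈ AddMonoidHom.ker
        (aeval (Dop U₁ g hg (ZMod p)) (X ^ j - 1 : ℤ[X]) : AddMonoid.End (Γ ⧸ U₁ → ZMod p)) := by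
    intro f
    rw [mem_ker_X_pow]
    intro x
    rw [pull_apply, pull_apply, cosetMap_mk, cosetMap_mk]
    congr 1
    exact QuotientGroup.mk_mul_of_mem x
      ((le_sup_right : Subgroup.zpowers (g ^ j) ≤ _) (Subgroup.mem_zpowers _))
  let φ : (Γ ⧸ (U₁ ⊔ Subgroup.zpowers (g ^ j)) → ZMod p) →+ ↥(AddMonoidHom.ker
      (aeval (Dop U₁ g hg (ZMod p)) (X ^ j - 1 : ℤ[X]) : AddMonoid.End (Γ ⧸ U₁ → ZMod p))) :=
    (pull (ZMod p) (cosetMap hle)).codRestrict _ hmem
  have hbij : Function.Bijective φ := by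
    constructor
    · intro f f' h
      have h1 := congrArg Subtype.val h
      ext s
      obtain ⟨t, rfl⟩ := hsurj s
      exact congrFun h1 t
    · rintro ⟨F, hF⟩
      rw [mem_ker_X_pow] at hF
      let W : Subgroup Γ :=
        { carrier := {w | ∀ x : Γ, F ((x * w : Γ) : Γ ⧸ U₁) = F (x : Γ ⧸ U₁)}
          one_mem' := fun x => by rw [mul_one]
          mul_mem' := fun {a b} ha hb x => by rw [← mul_assoc, hb, ha]
          inv_mem' := fun {a} ha x => by
            have := ha (x * a⁻¹)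
            rw [inv_mul_cancel_right] at this
            exact this.symm }
      have hW : U₁ ⊔ Subgroup.zpowers (g ^ j) ≤ W := by
        refine sup_le (fun u hu x => ?_) ?_
        · rw [QuotientGroup.mk_mul_of_mem x hu]
        · rw [Subgroup.zpowers_le]
          exact hF
      refine ⟨Quotient.lift (fun x : Γ => F (x : Γ ⧸ U₁)) (fun a b hab => ?_), ?_⟩
      · have hab' : a⁻¹ * b ∈ U₁ ⊔ Subgroup.zpowers (g ^ j) := QuotientGroup.leftRel_apply.1 hab
        have := hW hab' a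
        rw [mul_inv_cancel_left] at this
        exact this.symm
      · apply Subtype.ext
        ext s
        induction s using QuotientGroup.induction_on with
        | H x => rfl
  refine (lam_iso L (AddEquiv.ofBijective φ hbij) ?_ hmod).symm
  intro γ f
  apply Subtype.ext
  exact isHom_pull (rhoChi χ) (isSetMap_cosetMap hle) γ f

theorem rmulQ_iterate (k : ℕ) (x : Γ) :
    (rmul U₁ g hg)^[k] (x : Γ ⧸ U₁) = ((x * g ^ k : Γ) : Γ ⧸ U₁) := by
  induction k generalizing x with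
  | zero => simp
  | succ k ih => rw [Function.iterate_succ_apply, rmul_mk, ih, pow_succ', mul_assoc]

theorem rmulQ_iterate_eq_id {m : ℕ} (hgm : g ^ m ∈ U₁) : (rmul U₁ g hg)^[m] = id := by
  ext s
  induction s using QuotientGroup.induction_on with
  | H x =>
    rw [rmulQ_iterate, QuotientGroup.mk_mul_of_mem x hgm]
    rfl

theorem rmul_bijective {m : ℕ} (hm : 0 < m) (hgm : g ^ m ∈ U₁) :
    Function.Bijective (rmul U₁ g hg) := by
  have hid := rmulQ_iterate_eq_id U₁ g hg hgm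
  obtain ⟨n, rfl⟩ : ∃ n, m = n + 1 := ⟨m - 1, by omega⟩
  constructor
  · have : Function.Injective ((rmul U₁ g hg)^[n] ∘ rmul U₁ g hg) := by
      rw [← Function.iterate_succ, hid]
      exact Function.injective_id
    exact this.of_comp
  · have : Function.Surjective (rmul U₁ g hg ∘ (rmul U₁ g hg)^[n]) := by
      rw [← Function.iterate_succ', hid]
      exact Function.surjective_id
    exact this.of_comp

/-- right multiplication by `g` as a permutation -/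
def rperm {m : ℕ} (hm : 0 < m) (hgm : g ^ m ∈ U₁) : Equiv.Perm (Γ ⧸ U₁) :=
  Equiv.ofBijective _ (rmul_bijective U₁ g hg hm hgm)

theorem rperm_apply {m : ℕ} (hm : 0 < m) (hgm : g ^ m ∈ U₁) (s : Γ ⧸ U₁) :
    rperm U₁ g hg hm hgm s = rmul U₁ g hg s := rfl

theorem rperm_pow {m : ℕ} (hm : 0 < m) (hgm : g ^ m ∈ U₁) : rperm U₁ g hg hm hgm ^ m = 1 := by
  ext s
  rw [← Equiv.Perm.iterate_eq_pow]
  show (rmul U₁ g hg)^[m] s = s
  rw [rmulQ_iterate_eq_id U₁ g hg hgm]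
  rfl

theorem rperm_comm {m : ℕ} (hm : 0 < m) (hgm : g ^ m ∈ U₁) (γ : Γ) (s : Γ ⧸ U₁) :
    rperm U₁ g hg hm hgm (cosetPerm U₁ γ s) = cosetPerm U₁ γ (rperm U₁ g hg hm hgm s) :=
  isSetMap_rmul U₁ g hg γ s

/-- the kernel of `P(δ)` on invariant functions -/
theorem card_ker_invShift {Ω : Type} (R : Type) [AddCommGroup R] (E : Set (Equiv.Perm Ω))
    (σ : Equiv.Perm Ω) (hσ : ∀ e ∈ E, ∀ x, σ (e x) = e (σ x)) (D : AddMonoid.End (Ω → R))
    (hD : ∀ f x, D f x = f (σ x)) (P : ℤ[X]) :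
    Nat.card {F : Ω → R // aeval D P F = 0 ∧ F ∈ invFun Ω R E} =
      Nat.card (AddMonoidHom.ker (aeval (invShift R E σ hσ) P : AddMonoid.End (invFun Ω R E))) := by
  have key : ∀ w : invFun Ω R E, ((aeval (invShift R E σ hσ) P w : invFun Ω R E) : Ω → R) =
      aeval D P (w : Ω → R) := fun w =>
    aeval_intertwine (invFun Ω R E).subtype (invShift R E σ hσ) D
      (fun w => by
        ext x
        rw [hD]
        rfl) P w
  refine Nat.card_congr
    { toFun := fun F => ⟨⟨F.1, F.2.2⟩, by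
        rw [AddMonoidHom.mem_ker]
        apply Subtype.ext
        exact (key ⟨F.1, F.2.2⟩).trans F.2.1⟩
      invFun := fun w => ⟨w.1.1, by
        have h := w.2
        rw [AddMonoidHom.mem_ker] at h
        exact (key w.1).symm.trans (congrArg Subtype.val h), w.1.2⟩
      left_inv := fun F => rfl
      right_inv := fun w => rfl }

theorem card_minus_kerRho (c : Γ) (hc : χ c = -1) (P : ℤ[X]) :
    Nat.card (minus (kerRho (isHom_Dop U₁ g hg (rhoChi χ)) P) c) =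
      Nat.card {F : Γ ⧸ U₁ → ZMod p // aeval (Dop U₁ g hg (ZMod p)) P F = 0 ∧
        F ∈ invFun (Γ ⧸ U₁) (ZMod p) {cosetPerm U₁ c}} := by
  have key : ∀ F : Γ ⧸ U₁ → ZMod p, Fn (cosetPerm U₁) (rhoChi χ) c F = -F ↔
      F ∈ invFun (Γ ⧸ U₁) (ZMod p) {cosetPerm U₁ c} := by
    intro F
    constructor
    · intro h e he x
      rw [Set.mem_singleton_iff] at he
      subst he
      have h1 := congrFun h (cosetPerm U₁ c x)
      rw [Fn_apply, rhoChi_apply, hc, Pi.neg_apply] at h1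
      have h2 : (cosetPerm U₁ c)⁻¹ (cosetPerm U₁ c x) = x := by simp
      rw [h2] at h1
      simp only [Units.val_neg, Units.val_one, neg_mul, one_mul, neg_inj] at h1
      exact h1.symm
    · intro h
      ext s
      rw [Fn_apply, rhoChi_apply, hc, Pi.neg_apply]
      have h1 := h (cosetPerm U₁ c) rfl ((cosetPerm U₁ c)⁻¹ s)
      have h2 : cosetPerm U₁ c ((cosetPerm U₁ c)⁻¹ s) = s := by simp
      rw [h2] at h1
      simp only [Units.val_neg, Units.val_one, neg_mul, one_mul, neg_inj]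
      exact h1.symm
  refine Nat.card_congr
    { toFun := fun a => ⟨a.1.1, a.1.2, (key _).1 (congrArg Subtype.val a.2)⟩
      invFun := fun F => ⟨⟨F.1, F.2.1⟩, Subtype.ext ((key _).2 F.2.2)⟩
      left_inv := fun a => rfl
      right_inv := fun F => rfl }

theorem rat_minus [Finite (Γ ⧸ U₁)] {m : ℕ} (hm : 0 < m) (hpm : ¬ p ∣ m) (hgm : g ^ m ∈ U₁) (c : Γ)
    (hc : χ c = -1) (d : ℕ) (hd : d ∣ m) (P : ℤ[X]) (hP : redP p P ∣ cyclotomic d (ZMod p)) :
    d.totient * padicValNat p (Nat.card (minus (kerRho (isHom_Dop U₁ g hg (rhoChi χ)) P) c)) =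
      (redP p P).natDegree * padicValNat p
        (Nat.card (minus (kerRho (isHom_Dop U₁ g hg (rhoChi χ)) (cyclotomic d ℤ)) c)) := by
  have hσ : ∀ e ∈ ({cosetPerm U₁ c} : Set (Equiv.Perm (Γ ⧸ U₁))), ∀ x,
      rperm U₁ g hg hm hgm (e x) = e (rperm U₁ g hg hm hgm x) := by
    intro e he x
    rw [Set.mem_singleton_iff] at he
    subst he
    exact rperm_comm U₁ g hg hm hgm c x
  have h := isRat_perm hm hpm _ (rperm U₁ g hg hm hgm) hσ (rperm_pow U₁ g hg hm hgm) d hd P hP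
  have hD : ∀ (f : Γ ⧸ U₁ → ZMod p) x, Dop U₁ g hg (ZMod p) f x = f (rperm U₁ g hg hm hgm x) :=
    fun f x => rfl
  rw [card_minus_kerRho χ U₁ g hg c hc, card_minus_kerRho χ U₁ g hg c hc,
    card_ker_invShift (ZMod p) _ (rperm U₁ g hg hm hgm) hσ _ hD,
    card_ker_invShift (ZMod p) _ (rperm U₁ g hg hm hgm) hσ _ hD]
  exact h

theorem rat_dual [Finite (Γ ⧸ U₁)] {m : ℕ} (hm : 0 < m) (hpm : ¬ p ∣ m) (hgm : g ^ m ∈ U₁)
    {H : Type} [Group H] (r : H →* Γ) (d : ℕ) (hd : d ∣ m) (P : ℤ[X])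
    (hP : redP p P ∣ cyclotomic d (ZMod p)) :
    d.totient * padicValNat p
        (Nat.card (H0 ((dualRho χ (kerRho (isHom_Dop U₁ g hg (rhoChi χ)) P)).comp r))) =
      (redP p P).natDegree * padicValNat p
        (Nat.card (H0 ((dualRho χ (kerRho (isHom_Dop U₁ g hg (rhoChi χ)) (cyclotomic d ℤ))).comp r))) :=
  rat_dual' χ U₁ g hg hm hpm hgm r d hd P hP

end Fermat.Agent.S56.E
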