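import Fermat.Agent.S56.E.Q.Units
import Fermat.Agent.S56.E.Q.Perm
import Fermat.Agent.S56.E.P.Main
import Fermat.Agent.S56.E.Ar.Add
import Fermat.Agent.S56.E.Abs.Poly

/-!
# S56 / E : `lam (ker P(D)) = 0`      (assembly of (P), (Q), POLY; helper15)
-/

set_option autoImplicit false

noncomputable section

namespace Fermat.Agent.S56.E

open Fermat.Agent.S55 Fermat.Agent.S55.D ExtCitation Polynomial

variable {p : ℕ} [Fact p.Prime]

theorem finMod_of_isMod {S₀ : Finset Nat.Primes} {U : Subgroup GQ} (hU : U ∈ (lvlS S₀).sets)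
    {A : Type} [AddCommGroup A] {ρ : GQ →* AddMonoid.End A} (h : IsMod U p ρ) :
    FinMod p (lvlS S₀) ρ :=
  ⟨h.fin, h.tors, fun a => ⟨U, hU, fun u hu => h.triv u hu a⟩⟩

/-- the arithmetic additive function -/
def lamData (hp2 : p ≠ 2) {S₀ : Finset Nat.Primes} (hpS : pPrime p ∈ S₀) {U : Subgroup GQ}
    (hU : U ∈ (lvlS S₀).sets) : LamData U p VG where
  lam _ _ ρ := lam p ρ
  add Ss hB := lam_add hp2 hpS Ss (finMod_of_isMod hU hB)

theorem cosetPerm_eq_one {Γ : Type} [Group Γ] {U U₁ : Subgroup Γ} [U.Normal] (h : U ≤ U₁) (u : Γ)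
    (hu : u ∈ U) : cosetPerm U₁ u = 1 := by
  refine Equiv.ext fun s => ?_
  induction s using QuotientGroup.induction_on with
  | H x =>
    show ((u * x : Γ) : Γ ⧸ U₁) = (x : Γ ⧸ U₁)
    rw [eq_comm, QuotientGroup.eq]
    have h1 : x⁻¹ * u * x ∈ U := by
      have := Subgroup.Normal.conj_mem ‹U.Normal› u hu x⁻¹
      simpa using this
    have := h h1
    simpa [mul_assoc] using this

theorem rmul_iterate {Γ : Type} [Group Γ] (U₁ : Subgroup Γ) (g : Γ)
    (hg : ∀ u ∈ U₁, g⁻¹ * u * g ∈ U₁) (k : ℕ) (x : Γ) :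
    (rmul U₁ g hg)^[k] (x : Γ ⧸ U₁) = ((x * g ^ k : Γ) : Γ ⧸ U₁) := by
  induction k generalizing x with
  | zero => simp
  | succ k ih =>
    rw [Function.iterate_succ_apply, rmul_mk, ih, pow_succ', mul_assoc]

theorem rmul_iterate_eq_id {Γ : Type} [Group Γ] (U₁ : Subgroup Γ) (g : Γ)
    (hg : ∀ u ∈ U₁, g⁻¹ * u * g ∈ U₁) {m : ℕ} (hgm : g ^ m ∈ U₁) : (rmul U₁ g hg)^[m] = id := by
  funext s
  induction s using QuotientGroup.induction_on with
  | H x =>
    rw [rmul_iterate, id_eq, QuotientGroup.eq]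
    simpa [mul_assoc] using U₁.inv_mem hgm

section

variable (hp2 : p ≠ 2) {S₀ : Finset Nat.Primes} (hpS : pPrime p ∈ S₀) {U : Subgroup GQ}
  (hU : U ∈ (lvlS S₀).sets) [U.Normal] (U₁ : Subgroup GQ) (g : GQ)
  (hg : ∀ u ∈ U₁, g⁻¹ * u * g ∈ U₁) (hUU : U ≤ U₁)

include hU hUU in
theorem smoothSet_cosetPerm_of_le : SmoothSet (cosetPerm U₁) (lvlS S₀) :=
  ⟨U, hU, fun u hu => cosetPerm_eq_one hUU u hu⟩

include hU hUU in
theorem finite_quot_of_le : Finite (GQ ⧸ U₁) := by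
  have := (lvlS S₀).fin U hU
  have := Subgroup.finiteIndex_of_le hUU
  exact Subgroup.finite_quotient_of_finiteIndex

theorem padicValNat_prod_aux {ι : Type*} (s : Finset ι) (f : ι → ℕ) (hf : ∀ i ∈ s, f i ≠ 0) :
    padicValNat p (∏ i ∈ s, f i) = ∑ i ∈ s, padicValNat p (f i) := by
  classical
  induction s using Finset.induction_on with
  | empty => simp
  | insert a s ha ih =>
    rw [Finset.prod_insert ha, Finset.sum_insert ha,
      padicValNat.mul (hf a (Finset.mem_insert_self a s))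
        (Finset.prod_ne_zero_iff.2 fun i hi => hf i (Finset.mem_insert_of_mem hi)),
      ih fun i hi => hf i (Finset.mem_insert_of_mem hi)]

theorem redP_dvd_of_dvd_cyclotomic {m d : ℕ} (hd : d ∣ m) {P : ℤ[X]}
    (hP : redP p P ∣ cyclotomic d (ZMod p)) : redP p P ∣ X ^ m - 1 :=
  hP.trans ((cyclotomic.dvd_X_pow_sub_one d (ZMod p)).trans
    (by obtain ⟨k, rfl⟩ := hd; exact pow_one_sub_dvd_pow_mul_sub_one _ _ _))

include hp2 hpS hU hUU in
/-- the formula for `lamS` of `ker R(D)` -/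
theorem lamS_ker {m : ℕ} (hm : 0 < m) (hpm : ¬ p ∣ m) (hgm : g ^ m ∈ U₁) {S : Finset Nat.Primes}
    (hS : S₀ ⊆ S) (R : ℤ[X]) (hR : redP p R ∣ X ^ m - 1) :
    lamS p S (kerRho (isHom_Dop U₁ g hg (rhoChi (cycloChar p))) R) +
        padicValNat p (Nat.card (H0 ((dualRho (cycloChar p)
          (kerRho (isHom_Dop U₁ g hg (rhoChi (cycloChar p))) R)).comp (MonoidHom.id GQ)))) +
        padicValNat p (Nat.card (kerP (H1e (lvlS S) (isHom_Dop U₁ g hg (rhoChi (cycloChar p)))) R)) =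
      padicValNat p (Nat.card (kerP (H0e (isHom_Dop U₁ g hg (rhoChi (cycloChar p)))) R)) +
        ∑ v ∈ S, (padicValNat p (Nat.card (H0 ((dualRho (cycloChar p)
          (kerRho (isHom_Dop U₁ g hg (rhoChi (cycloChar p))) R)).comp (Dq v).subtype))) : ℤ) +
        padicValNat p (Nat.card (minus (kerRho (isHom_Dop U₁ g hg (rhoChi (cycloChar p))) R) cc)) := by
  classical
  obtain ⟨dat⟩ := datumQ p hp2
  have hfinQ := finite_quot_of_le hU U₁ hUU
  haveI : Fintype (GQ ⧸ U₁) := Fintype.ofFinite _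
  have hsm : SmoothSet (cosetPerm U₁) (lvlS S₀) := smoothSet_cosetPerm_of_le hU U₁ hUU
  have hT : FinMod p (lvlS S₀) (rhoChi (cycloChar p)) := finMod_rhoChi (smooth_rhoT_lvlS S₀ hpS)
  have hN1 : FinMod p (lvlS S₀) (Fn (cosetPerm U₁) (rhoChi (cycloChar p))) := hT.fn hsm
  have hNR : FinMod p (lvlS S₀) (kerRho (isHom_Dop U₁ g hg (rhoChi (cycloChar p))) R) := hN1.sub _
  have hNRQ : FinMod p lvlQ (kerRho (isHom_Dop U₁ g hg (rhoChi (cycloChar p))) R) :=
    finMod_lvlQ_aux hNR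
  have hdual := (hNRQ.dual (smooth_rhoT p)).fin
  have hDm : Dop U₁ g hg (ZMod p) ^ m = 1 := Dop_pow U₁ g hg hgm _
  obtain ⟨hf2, h2⟩ := card_H2S hp2 (hS hpS) hNRQ
  have hsha := card_ShaA2_ker lvlQ Dq hN1.tors (isHom_Dop U₁ g hg (rhoChi (cycloChar p))) hm hpm hDm
    R hR (fun x hx => dat.hasse _ (smoothSet_lvlQ_of_lvlS hsm) (isTrans_cosetPerm U₁) x hx)
  have h1 := card_H1_ker (lvlS S) hN1.tors (isHom_Dop U₁ g hg (rhoChi (cycloChar p))) hm hpm hDm R hR
  have h0 := card_H0_ker (isHom_Dop U₁ g hg (rhoChi (cycloChar p))) R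
  rw [hsha, one_mul] at h2
  have hv := congrArg (padicValNat p) h2
  rw [padicValNat.mul Nat.card_pos.ne' Nat.card_pos.ne',
    padicValNat_prod_aux _ _ (fun v _ => Nat.card_pos.ne')] at hv
  rw [MonoidHom.comp_id, ← h1, ← h0]
  unfold lamS
  have hv' : ((padicValNat p (Nat.card (H2S S (kerRho (isHom_Dop U₁ g hg (rhoChi (cycloChar p))) R))) : ℕ) : ℤ) +
      padicValNat p (Nat.card (H0 (dualRho (cycloChar p)
        (kerRho (isHom_Dop U₁ g hg (rhoChi (cycloChar p))) R)))) =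
      ∑ v ∈ S, (padicValNat p (Nat.card (H0 ((dualRho (cycloChar p)
          (kerRho (isHom_Dop U₁ g hg (rhoChi (cycloChar p))) R)).comp (Dq v).subtype))) : ℤ) := by
    exact_mod_cast hv
  linarith

include hp2 hpS hU hUU in
/-- **(Q)** rationality of `lam (ker P(D))` -/
theorem rat_lam {m : ℕ} (hm : 0 < m) (hpm : ¬ p ∣ m) (hgm : g ^ m ∈ U₁) (d : ℕ) (hd : d ∣ m)
    (P : ℤ[X]) (hP : redP p P ∣ cyclotomic d (ZMod p)) :
    d.totient • lam p (kerRho (isHom_Dop U₁ g hg (rhoChi (cycloChar p))) P) =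
      (redP p P).natDegree •
        lam p (kerRho (isHom_Dop U₁ g hg (rhoChi (cycloChar p))) (cyclotomic d ℤ)) := by
  have hfinQ := finite_quot_of_le hU U₁ hUU
  haveI : Fintype (GQ ⧸ U₁) := Fintype.ofFinite _
  have hsm : SmoothSet (cosetPerm U₁) (lvlS S₀) := smoothSet_cosetPerm_of_le hU U₁ hUU
  obtain ⟨S₁, hS₁, hrat⟩ := isRatDiff_H01 hp2 hpS hsm (isTrans_cosetPerm U₁)
    (isSetMap_rmul U₁ g hg) hm hpm (rmul_iterate_eq_id U₁ g hg hgm)
  have hΦ : redP p (cyclotomic d ℤ) ∣ cyclotomic d (ZMod p) := by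
    rw [redP, map_cyclotomic]
  unfold lam
  rw [← Filter.Germ.coe_smul, ← Filter.Germ.coe_smul, Filter.Germ.coe_eq, Filter.EventuallyEq,
    Filter.eventually_atTop]
  refine ⟨S₁, fun S hS => ?_⟩
  have e1 := lamS_ker hp2 hpS hU U₁ g hg hUU hm hpm hgm (hS₁.trans hS) P
    (redP_dvd_of_dvd_cyclotomic hd hP)
  have e2 := lamS_ker hp2 hpS hU U₁ g hg hUU hm hpm hgm (hS₁.trans hS) (cyclotomic d ℤ)
    (redP_dvd_of_dvd_cyclotomic hd hΦ)
  have hrat' : IsRatDiff p m (H1e (lvlS S) (isHom_Dop U₁ g hg (rhoChi (cycloChar p))))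
      (H0e (isHom_Dop U₁ g hg (rhoChi (cycloChar p)))) := hrat S hS
  have r1 := hrat' d hd P hP
  have r2 := rat_minus (cycloChar p) U₁ g hg hm hpm hgm cc (cycloChar_cc p) d hd P hP
  have r3 := rat_dual (cycloChar p) U₁ g hg hm hpm hgm (MonoidHom.id GQ) d hd P hP
  have r4 := fun v : Nat.Primes =>
    rat_dual (cycloChar p) U₁ g hg hm hpm hgm (Dq v).subtype d hd P hP
  rw [dimK_aeval, dimK_aeval, dimK_aeval, dimK_aeval] at r1
  have r4' : (d.totient : ℤ) * ∑ v ∈ S, (padicValNat p (Nat.card (H0 ((dualRho (cycloChar p)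
          (kerRho (isHom_Dop U₁ g hg (rhoChi (cycloChar p))) P)).comp (Dq v).subtype))) : ℤ) =
      ((redP p P).natDegree : ℤ) * ∑ v ∈ S, (padicValNat p (Nat.card (H0 ((dualRho (cycloChar p)
          (kerRho (isHom_Dop U₁ g hg (rhoChi (cycloChar p))) (cyclotomic d ℤ))).comp
            (Dq v).subtype))) : ℤ) := by
    rw [Finset.mul_sum, Finset.mul_sum]
    exact Finset.sum_congr rfl fun v _ => by exact_mod_cast r4 v
  have r1' := congrArg (Nat.cast : ℕ → ℤ) r1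
  have r2' := congrArg (Nat.cast : ℕ → ℤ) r2
  have r3' := congrArg (Nat.cast : ℕ → ℤ) r3
  simp only [Nat.cast_mul, Nat.cast_add] at r1' r2' r3'
  simp only [Pi.smul_apply, nsmul_eq_mul]
  linear_combination (d.totient : ℤ) * e1 - ((redP p P).natDegree : ℤ) * e2 + r4' + r2' - r3' - r1'

include hp2 hpS hU hUU in
/-- **`lam (ker P(D)) = 0`** -/
theorem lam_ker (hχ : ∀ u ∈ U, cycloChar p u = 1) {m : ℕ} (hm : 0 < m) (hpm : ¬ p ∣ m)
    (hgm : g ^ m ∈ U₁) (P : ℤ[X]) :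
    lam p (kerRho (isHom_Dop U₁ g hg (rhoChi (cycloChar p))) P) = 0 := by
  have hfinQ := finite_quot_of_le hU U₁ hUU
  have hmod : IsMod U p (Fn (cosetPerm U₁) (rhoChi (cycloChar p))) :=
    (isMod_rhoChi hχ).fn (fun u hu => cosetPerm_eq_one hUU u hu)
  refine lam_ker_of_rat VG_torsionFree (lamData hp2 hpS hU) hmod
    (isHom_Dop U₁ g hg (rhoChi (cycloChar p))) hm hpm (Dop_pow U₁ g hg hgm _) ?_ ?_ P
  · intro j _
    rw [lam_ker_X_pow (cycloChar p) U₁ g hg (lamData hp2 hpS hU)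
      (fun u hu => cosetPerm_eq_one hUU u hu) hχ j]
    have hle : U ≤ U₁ ⊔ Subgroup.zpowers (g ^ j) := hUU.trans le_sup_left
    have := finite_quot_of_le hU _ hle
    haveI : Fintype (GQ ⧸ (U₁ ⊔ Subgroup.zpowers (g ^ j))) := Fintype.ofFinite _
    exact lam_Fn_T hp2 hpS _ (smoothSet_cosetPerm_of_le hU _ hle) (isTrans_cosetPerm _)
  · intro d hd P hP
    exact rat_lam hp2 hpS hU U₁ g hg hUU hm hpm hgm d hd P hP

end

end Fermat.Agent.S56.E
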