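import Fermat.Agent.S56.E.Q.Ker
import Fermat.Agent.S56.E.P.Unr
import Fermat.Agent.S56.E.P.VS
import Fermat.Agent.S56.E.Abs.Rat
import Fermat.Agent.S56.E.Ar.Mono

/-!
# S56 / E / keys `S56/E-QU1`, `S56/E-QU2`, `S56/E-QU3`, `S56/E-QH01` : `H¹_S(Map(π,μ_p)) - H⁰` is rational       (arithmetic; S55/D/Ar, S14)

`π` a finite transitive `S₀`-smooth `GQ`-set, `F = G.fld π s0`, `EG π ≅ Fˣ` (additive notation, `D.evE htr s0`), `j : Sg → Sg` a map of `GQ`-sets (`IsSetMap π π j`), `pullG hj : EG π →+ EG π`.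
`US S π ≤ EG π` : the `S`-units, `{a | ∀ v ∉ S, ∀ s, w_v (vl a s) = 0}` : visibly stable under `pullG hj` (`vl_pullG`).
* `evF_mem_SUnit_iff` + `finite_US` (E-QU1, ~250 lines): `a ∈ US S π ↔ evF htr s0 a ∈ SUnit F (SF F S)` (`D.w_vl_eq` : `w_v(vl a (π g s0)) = ord (plc F v g) (evF a) * e`, `e > 0`; `D.exists_plc`, `D.plc_mem_SF_iff`, `mem_SUnit_iff`).  So `US S π ≃+ Additive (SUnit F (SF F S))`, a finitely generated `ℤ`-module
  (instance in S14/SUnits.lean, used by `sunit_finrank`; transport with `Module.Finite.equiv`/`Module.Finite.of_surjective`).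
  `torsion_US` : the torsion elements of `EG π ≅ Fˣ` are the roots of unity of the number field `F`: a finite cyclic group (`NumberField.Units.torsion`/`rootsOfUnity` in a field; `isCyclic_of_subgroup_isDomain`), stable under `pullG hj`; an endomorphism of a finite cyclic group is `x ↦ a • x`.
* `exists_kumS` (E-QU2, ~300 lines): if `Gen (SF F S)`: `q : US S π →+ H¹_S(M₀)` with `infl1 (q a) = kumG a` (exists: `D.loc1_kumG_mem_H1ur`, `D.mem_range_infl1_iff`; unique + additive: `D.infl1_injective`); kernel `= p US` (`kumG_eq_zero_iff`: `a = p c`, then `c ∈ US` since `p w(c) = w(a) = 0`);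
  onto: `x ∈ H¹_S`, `infl1 x = kumG b`, `evF b ∈ VS` (`ord_of_unram`), `VS = pows ⊔ SUnit` (`C.exists_sunit hgen`) ⇒ `b = p c + a`, `a ∈ US`.
* `exists_muS` (E-QU3, ~200 lines): `ι : H⁰(M₀) →+ US S π` injective with image `US[p]`, natural in `j`.  `(kumData_Q p).ses : SES T Gm Gm i (p •)`; `ι := H0c (isHom_post π (ses.hi))` (see how `kumG`/`T.KumData.kum` uses `ses.fn π`; S55/T/Kummer.lean); left exactness of `H⁰`; `p a = 0` ⇒ `a ∈ US` (`p w = 0`).
* `isRatDiff_H01` (E-QH01, ~200 lines): `isRatDiff_fg` with `A = US S π`, `δ = pullG hj` restricted, `δ₁ = H1e (lvlS S) (isHom_pull T hj)`, `δ₀ = H0e ..`; `hc₁`: apply the injective `infl1`: `infl1 ∘ H1c = H1c ∘ infl1` (on cocycles, `rfl`-like) and `D.kumG_pull`.  `δ^m = 1` from `j^[m] = id` (`vl_ext`, `vl_pullG`).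
-/

set_option autoImplicit false

noncomputable section

namespace Fermat.Agent.S56.E

open Fermat.Agent.S55 Fermat.Agent.S55.D ExtCitation Fermat.Agent.S14 NumberField

variable {Sg : Type} [Fintype Sg] {π : GQ →* Equiv.Perm Sg}

/-- the `S`-units -/
def US (S : Finset Nat.Primes) (π : GQ →* Equiv.Perm Sg) : AddSubgroup (EG π) where
  carrier := {a | ∀ v ∉ S, ∀ s, (B.wq v).w (vl a s) = 0}
  add_mem' := fun {a b} ha hb v hv s => by
    rw [vl_add, (B.wq v).map_mul _ _ (vl_ne_zero a s) (vl_ne_zero b s), ha v hv s, hb v hv s,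
      add_zero]
  zero_mem' := fun v _ s => by
    have h := (B.wq v).map_mul 1 1 one_ne_zero one_ne_zero
    rw [mul_one] at h
    rw [vl_zero]
    linarith
  neg_mem' := fun {a} ha v hv s => by
    have h1 := (B.wq v).map_mul 1 1 one_ne_zero one_ne_zero
    rw [mul_one] at h1
    have h := (B.wq v).map_mul _ _ (vl_ne_zero a s) (inv_ne_zero (vl_ne_zero a s))
    rw [mul_inv_cancel₀ (vl_ne_zero a s), ha v hv s] at h
    rw [vl_neg]
    linarith

theorem mem_US {S : Finset Nat.Primes} {a : EG π} :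
    a ∈ US S π ↔ ∀ v ∉ S, ∀ s, (B.wq v).w (vl a s) = 0 := Iff.rfl

/-- `pullG` on the `S`-units -/
def pullUS (S : Finset Nat.Primes) {j : Sg → Sg} (hj : IsSetMap π π j) : AddMonoid.End (US S π) :=
  ((pullG hj).comp (US S π).subtype).codRestrict (US S π) (fun a v hv s => a.2 v hv (j s))

@[simp] theorem coe_pullUS (S : Finset Nat.Primes) {j : Sg → Sg} (hj : IsSetMap π π j)
    (a : US S π) : ((pullUS S hj a : US S π) : EG π) = pullG hj a.1 := rfl

theorem mem_US_of_nsmul {S : Finset Nat.Primes} {n : ℕ} (hn : n ≠ 0) {a : EG π}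
    (h : n • a ∈ US S π) : a ∈ US S π := by
  intro v hv s
  have h1 := h v hv s
  rw [vl_nsmul, Fermat.Agent.S05.RVal.w_pow (vl_ne_zero a s)] at h1
  rcases mul_eq_zero.1 h1 with h2 | h2
  · exact absurd (by exact_mod_cast h2) hn
  · exact h2

theorem evF_mem_SUnit_iff (htr : IsTrans π) (s0 : Sg) [NumberField (G.fld π s0)]
    (S : Finset Nat.Primes) (a : EG π) :
    a ∈ US S π ↔ evF htr s0 a ∈ SUnit (G.fld π s0) (SF (G.fld π s0) S) := by
  rw [mem_SUnit_iff, mem_US]
  constructor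
  · intro h w hw
    obtain ⟨v, g, rfl⟩ := exists_plc w
    rw [plc_mem_SF_iff] at hw
    obtain ⟨e, he, h1⟩ := w_vl_eq htr s0 v g
    have h2 := h1 a
    rw [h v hw] at h2
    have h3 : ((ord (plc (G.fld π s0) v g) (evF htr s0 a) : ℤ) : ℝ) = 0 := by
      rcases mul_eq_zero.1 h2.symm with h4 | h4
      · exact h4
      · exact absurd h4 he.ne'
    exact_mod_cast h3
  · intro h v hv s
    obtain ⟨g, rfl⟩ := htr.2 s0 s
    obtain ⟨e, he, h1⟩ := w_vl_eq htr s0 v g
    rw [h1 a, h _ (by rw [plc_mem_SF_iff]; exact hv)]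
    simp

theorem finite_US (htr : IsTrans π) (hπ : SmoothSet π lvlQ) (S : Finset Nat.Primes) :
    Module.Finite ℤ (US S π) := by
  obtain ⟨s0⟩ := htr.1
  haveI : NumberField (G.fld π s0) := G.numberField_fld hπ s0
  let f : Additive (SUnit (G.fld π s0) (SF (G.fld π s0) S)) →+ US S π :=
    ((evE htr s0).symm.toAddMonoidHom.comp
      (MonoidHom.toAdditive (SUnit (G.fld π s0) (SF (G.fld π s0) S)).subtype)).codRestrict (US S π)
      (fun x => by
        rw [evF_mem_SUnit_iff htr s0]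
        have : evF htr s0 ((evE htr s0).symm
            (Additive.ofMul ((x.toMul : SUnit (G.fld π s0) (SF (G.fld π s0) S)) : (G.fld π s0)ˣ))) =
            ((x.toMul : SUnit (G.fld π s0) (SF (G.fld π s0) S)) : (G.fld π s0)ˣ) := by
          simp [evF]
        exact this ▸ (x.toMul).2)
  have hf : Function.Surjective f := by
    intro a
    refine ⟨Additive.ofMul ⟨evF htr s0 a.1, (evF_mem_SUnit_iff htr s0 S a.1).1 a.2⟩, ?_⟩
    apply Subtype.ext
    show (evE htr s0).symm (Additive.ofMul (evF htr s0 a.1)) = a.1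
    simp [evF]
  exact Module.Finite.of_surjective f.toIntLinearMap hf

theorem torsion_US (htr : IsTrans π) (hπ : SmoothSet π lvlQ) (S : Finset Nat.Primes) {j : Sg → Sg}
    (hj : IsSetMap π π j) :
    ∃ a : ℤ, ∀ x : US S π, (∃ n : ℕ, 0 < n ∧ n • x = 0) → pullUS S hj x = a • x := by
  obtain ⟨s0⟩ := htr.1
  haveI := finite_US htr hπ S
  haveI : IsNoetherian ℤ (US S π) := isNoetherian_of_isNoetherianRing_of_finite ℤ _
  haveI : Finite (Submodule.torsion ℤ (US S π)) :=
    Module.finite_of_fg_torsion _ Submodule.torsion_isTorsion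
  have hmem : ∀ x : US S π, (∃ n : ℕ, 0 < n ∧ n • x = 0) → x ∈ Submodule.torsion ℤ (US S π) := by
    rintro x ⟨n, hn, hx⟩
    rw [Submodule.mem_torsion_iff]
    refine ⟨⟨(n : ℤ), mem_nonZeroDivisors_of_ne_zero (by exact_mod_cast hn.ne')⟩, ?_⟩
    show (n : ℤ) • x = 0
    rw [natCast_zsmul]
    exact hx
  let φ : Multiplicative (Submodule.torsion ℤ (US S π)) →* G.fld π s0 :=
    { toFun := fun x => ((evF htr s0 (x.toAdd.1.1) : (G.fld π s0)ˣ) : G.fld π s0)
      map_one' := by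
        show ((evF htr s0 (0 : EG π) : (G.fld π s0)ˣ) : G.fld π s0) = 1
        simp [evF]
      map_mul' := fun x y => by
        show ((evF htr s0 (x.toAdd.1.1 + y.toAdd.1.1) : (G.fld π s0)ˣ) : G.fld π s0) = _
        simp [evF] }
  have hφ : Function.Injective φ := by
    intro x y hxy
    have h1 : evF htr s0 (x.toAdd.1.1) = evF htr s0 (y.toAdd.1.1) := Units.ext hxy
    have h2 : evE htr s0 (x.toAdd.1.1) = evE htr s0 (y.toAdd.1.1) := h1
    have h3 := (evE htr s0).injective h2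
    exact Multiplicative.toAdd.injective (Subtype.ext (Subtype.ext h3))
  haveI : IsCyclic (Multiplicative (Submodule.torsion ℤ (US S π))) :=
    isCyclic_of_subgroup_isDomain φ hφ
  haveI : IsAddCyclic (Submodule.torsion ℤ (US S π)) := isCyclic_multiplicative_iff.1 inferInstance
  obtain ⟨g0, hg0⟩ := IsAddCyclic.exists_generator (α := Submodule.torsion ℤ (US S π))
  have hpull : pullUS S hj g0.1 ∈ Submodule.torsion ℤ (US S π) := by
    obtain ⟨a, ha⟩ := (Submodule.mem_torsion_iff _).1 g0.2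
    rw [Submodule.mem_torsion_iff]
    refine ⟨a, ?_⟩
    have h1 : (a : ℤ) • g0.1 = 0 := ha
    show (a : ℤ) • pullUS S hj g0.1 = 0
    rw [← map_zsmul, h1, map_zero]
  obtain ⟨a, ha⟩ := AddSubgroup.mem_zmultiples_iff.1 (hg0 ⟨_, hpull⟩)
  refine ⟨a, fun x hx => ?_⟩
  obtain ⟨n, hn⟩ := AddSubgroup.mem_zmultiples_iff.1 (hg0 ⟨x, hmem x hx⟩)
  have hn' : n • g0.1 = x := congrArg Subtype.val hn
  have ha' : a • g0.1 = pullUS S hj g0.1 := congrArg Subtype.val ha
  rw [← hn', map_zsmul, ← ha', smul_comm]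

variable {p : ℕ} [Fact p.Prime]

theorem exists_kumS (htr : IsTrans π) (s0 : Sg) (hπ : SmoothSet π lvlQ) [NumberField (G.fld π s0)]
    {S : Finset Nat.Primes} (hpS : pPrime p ∈ S) (hπS : SmoothSet π (lvlS S))
    (hgen : Gen (SF (G.fld π s0) S)) :
    ∃ q : US S π →+ H1 (lvlS S) (Fn π (rhoT p)), Function.Surjective q ∧
      (∀ x, q x = 0 ↔ ∃ y, p • y = x) ∧ ∀ x, infl1 S (Fn π (rhoT p)) (q x) = kumG p hπ x.1 := by
  have hp : p.Prime := Fact.out
  have hρ : Smooth (lvlS S) (Fn π (rhoT p)) := smooth_Fn (smooth_lvlS_rhoT p hpS) hπS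
  have hex : ∀ a : US S π, ∃ y, infl1 S (Fn π (rhoT p)) y = kumG p hπ a.1 := fun a =>
    (mem_range_infl1_iff S _ hρ (kumG p hπ a.1)).2 fun v hv =>
      loc1_kumG_mem_H1ur htr s0 hπ hpS hπS hv _ fun g => by
        rw [(mem_SUnit_iff _ _).1 ((evF_mem_SUnit_iff htr s0 S a.1).1 a.2) _
          (fun hmem => hv (plc_mem_SF_iff.1 hmem))]
        exact dvd_zero _
  choose q0 hq0 using hex
  let q : US S π →+ H1 (lvlS S) (Fn π (rhoT p)) := AddMonoidHom.mk' q0 (fun a b => by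
    apply infl1_injective S _
    rw [map_add, hq0, hq0, hq0]
    exact map_add _ _ _)
  have hq : ∀ x, infl1 S (Fn π (rhoT p)) (q x) = kumG p hπ x.1 := hq0
  refine ⟨q, ?_, ?_, hq⟩
  · intro x
    obtain ⟨b, hb⟩ := kumG_surjective p hπ (infl1 S (Fn π (rhoT p)) x)
    have h1 : ∀ w ∉ SF (G.fld π s0) S, (p : ℤ) ∣ ord w (evF htr s0 b) := by
      intro w hw
      obtain ⟨v, g, rfl⟩ := exists_plc w
      rw [plc_mem_SF_iff] at hw
      refine ord_of_unram htr s0 hπ hpS hπS hw b ?_ g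
      rw [hb]
      exact (mem_range_infl1_iff S _ hρ _).1 ⟨x, rfl⟩ v hw
    obtain ⟨c, hc⟩ := C.ECaux.exists_sunit (p := p) hgen (evF htr s0 b) h1
    have ha : b + p • ofF htr s0 c ∈ US S π := by
      rw [evF_mem_SUnit_iff htr s0]
      have : evF htr s0 (b + p • ofF htr s0 c) = evF htr s0 b * c ^ p := by
        rw [← ofF_pow]
        simp [evF, ofF]
      rw [this]
      exact hc
    refine ⟨⟨_, ha⟩, ?_⟩
    apply infl1_injective S _
    rw [hq, ← hb]
    show kumG p hπ (b + p • ofF htr s0 c) = _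
    rw [map_add, kumG_nsmul, add_zero]
  · intro x
    constructor
    · intro hx
      have h1 : kumG p hπ x.1 = 0 := by rw [← hq, hx, map_zero]
      obtain ⟨c, hc⟩ := (kumG_eq_zero_iff p hπ _).1 h1
      exact ⟨⟨c, mem_US_of_nsmul hp.ne_zero (by rw [hc]; exact x.2)⟩, Subtype.ext hc⟩
    · rintro ⟨y, rfl⟩
      apply infl1_injective S _
      rw [hq, map_zero]
      exact kumG_nsmul p hπ _

theorem exists_muS (p : ℕ) [Fact p.Prime] (S : Finset Nat.Primes) (π : GQ →* Equiv.Perm Sg) :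
    ∃ ι : ↥(H0 (Fn π (rhoT p))) →+ US S π, Function.Injective ι ∧
      (∀ x, p • x = 0 ↔ ∃ y, ι y = x) ∧
      ∀ {j : Sg → Sg} (hj : IsSetMap π π j) (y : ↥(H0 (Fn π (rhoT p)))),
        pullUS S hj (ι y) = ι (H0e (isHom_pull (rhoT p) hj) y) := by
  have Sf := ((T.kumData_Q p).ses.fn π)
  let ι0 : ↥(H0 (Fn π (rhoT p))) →+ EG π := H0c Sf.hi
  have hp0 : ∀ y, p • ι0 y = 0 := by
    intro y
    apply Subtype.ext
    exact Sf.comp_eq_zero y.1
  let ι : ↥(H0 (Fn π (rhoT p))) →+ US S π := ι0.codRestrict (US S π)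
    (fun y => mem_US_of_nsmul (Fact.out : p.Prime).ne_zero (by rw [hp0]; exact zero_mem _))
  refine ⟨ι, ?_, ?_, ?_⟩
  · intro y y' h
    have h1 : (ι0 y : Sg → Additive Qbˣ) = ι0 y' := congrArg (fun z : US S π => (z.1.1)) h
    exact Subtype.ext (Sf.inj h1)
  · intro x
    constructor
    · intro hx
      have h1 : (p • x.1.1 : Sg → Additive Qbˣ) = 0 := congrArg (fun z : US S π => (z.1.1)) hx
      obtain ⟨f, hf⟩ := (Sf.exact x.1.1).1 h1
      refine ⟨⟨f, fun g => ?_⟩, ?_⟩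
      · apply Sf.inj
        refine (Sf.hi g f).trans ?_
        rw [hf]
        exact x.1.2 g
      · exact Subtype.ext (Subtype.ext hf)
    · rintro ⟨y, rfl⟩
      exact Subtype.ext (hp0 y)
  · intro j hj y
    exact Subtype.ext (Subtype.ext rfl)

theorem isRatDiff_H01 (hp2 : p ≠ 2) {S₀ : Finset Nat.Primes} (hpS : pPrime p ∈ S₀)
    (hπ : SmoothSet π (lvlS S₀)) (htr : IsTrans π) {j : Sg → Sg} (hj : IsSetMap π π j) {m : ℕ}
    (hm : 0 < m) (hpm : ¬ p ∣ m) (hjm : j^[m] = id) :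
    ∃ S₁ : Finset Nat.Primes, S₀ ⊆ S₁ ∧ ∀ S : Finset Nat.Primes, S₁ ⊆ S →
      IsRatDiff p m (H1e (lvlS S) (isHom_pull (rhoT p) hj)) (H0e (isHom_pull (rhoT p) hj)) := by
  classical
  obtain ⟨s0⟩ := htr.1
  have hπQ : SmoothSet π lvlQ := smoothSet_lvlQ_of_lvlS hπ
  haveI : NumberField (G.fld π s0) := G.numberField_fld hπQ s0
  obtain ⟨S₂, hS₂⟩ := exists_gen_SF (G.fld π s0)
  refine ⟨S₀ ∪ S₂, Finset.subset_union_left, fun S hS => ?_⟩
  have hS0 : S₀ ⊆ S := Finset.subset_union_left.trans hS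
  have hπS : SmoothSet π (lvlS S) := by
    obtain ⟨U, hU, hu⟩ := hπ
    exact ⟨U, lvlS_mono hS0 hU, hu⟩
  obtain ⟨q, hq, hker, hinf⟩ := exists_kumS htr s0 hπQ (hS0 hpS) hπS
    (hS₂ S (Finset.subset_union_right.trans hS))
  obtain ⟨ι, hι, hrange, hnat⟩ := exists_muS p S π
  haveI := finite_US htr hπQ S
  refine isRatDiff_fg hm hpm q hq hker ι hι hrange (pullUS S hj) _ _ ?_ (fun y => hnat hj y) ?_
    (torsion_US htr hπQ S hj)
  · intro x
    apply infl1_injective S _
    rw [hinf, coe_pullUS, ← kumG_pull p hπQ hπQ hj, ← hinf]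
    obtain ⟨c, hc⟩ := H1.mk_surjective _ _ (q x)
    rw [← hc]
    rfl
  · have key : ∀ (n : ℕ) (a : US S π) (s : Sg),
        vl (((pullUS S hj) ^ n) a).1 s = vl a.1 (j^[n] s) := by
      intro n
      induction n with
      | zero => intro a s; rfl
      | succ n ih =>
        intro a s
        have h1 : ((pullUS S hj) ^ (n + 1)) a = ((pullUS S hj) ^ n) (pullUS S hj a) := by
          rw [pow_succ]; rfl
        rw [h1, ih, coe_pullUS, vl_pullG, ← Function.iterate_succ_apply' j n s]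
    refine AddMonoidHom.ext fun a => Subtype.ext (vl_ext fun s => ?_)
    refine (key m a s).trans ?_
    rw [hjm]
    rfl

end Fermat.Agent.S56.E
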